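import Fermat.Agent.RR.LinAlg

/-!
# Divisors of functions, degrees, and finiteness of `L(D)`
-/

set_option autoImplicit false
set_option linter.unusedSectionVars false
set_option linter.style.haveILetI false

open WithZero AlgebraicCurve Fermat.Agent.FF IntermediateField IsDedekindDomain Module
open scoped IntermediateField.algebraAdjoinAdjoin

namespace Fermat.Agent.RR

variable {K F : Type*} [Field K] [Field F] [Algebra K F] [IsAlgClosed K] [IsFnField K F]

theorem lt_exp_iff_le {a : ℤᵐ⁰} {n : ℤ} : a < exp (n + 1) ↔ a ≤ exp n := by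
  rcases eq_or_ne a 0 with rfl | ha
  · simp
  · rw [← exp_log ha, exp_lt_exp, exp_le_exp, Int.lt_add_one_iff]

/-- one-dimensionality of graded pieces, in terms of valuations. -/
theorem exists_sub_smul_le (v : Place K F) {f m : F} {n : ℤ} (hm : ¬ v.adicValuation m ≤ exp n)
    (hm' : v.adicValuation m ≤ exp (n + 1)) (hf : v.adicValuation f ≤ exp (n + 1)) :
    ∃ c : K, v.adicValuation (f - c • m) ≤ exp n := by
  rw [← lt_exp_iff_le, not_lt] at hm
  have hm0 : m ≠ 0 := by
    rintro rfl
    rw [map_zero] at hm
    exact exp_ne_zero (le_zero_iff.mp hm)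
  obtain ⟨c, hc⟩ := exists_sub_smul_lt v hm0 (hf.trans hm)
  exact ⟨c, lt_exp_iff_le.mp (hc.trans_le hm')⟩

section Upper

variable (S : Finset (Place K F))

/-- the ring of functions regular at `S`, as a vector space -/
def regAt : Submodule K F where
  carrier := {f | ∀ v ∈ S, v.adicValuation f ≤ 1}
  zero_mem' := by intro v _; simp
  add_mem' := by
    intro f g hf hg v hv
    exact (Valuation.map_add _ _ _).trans (max_le (hf v hv) (hg v hv))
  smul_mem' := by
    intro c f hf v hv
    rw [Algebra.smul_def, map_mul]
    exact (mul_le_of_le_one_left' (v.adicValuation_algebraMap_le_one c)).trans (hf v hv)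

theorem mem_regAt {f : F} : f ∈ regAt S ↔ ∀ v ∈ S, v.adicValuation f ≤ 1 := Iff.rfl

/-- functions regular at `S` vanishing to order `≥ n v` for `v ∈ S` -/
def vanAt (n : Place K F → ℕ) : Submodule K (regAt S) where
  carrier := {f | ∀ v ∈ S, v.adicValuation (f : F) ≤ exp (-(n v) : ℤ)}
  zero_mem' := by intro v _; simp
  add_mem' := by
    intro f g hf hg v hv
    exact (Valuation.map_add _ _ _).trans (max_le (hf v hv) (hg v hv))
  smul_mem' := by
    intro c f hf v hv
    change v.adicValuation (c • (f : F)) ≤ _
    rw [Algebra.smul_def, map_mul]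
    exact (mul_le_of_le_one_left' (v.adicValuation_algebraMap_le_one c)).trans (hf v hv)

theorem mem_vanAt {n : Place K F → ℕ} {f : regAt S} :
    f ∈ vanAt S n ↔ ∀ v ∈ S, v.adicValuation (f : F) ≤ exp (-(n v) : ℤ) := Iff.rfl

theorem finrank_quotient_vanAt (k : ℕ) : ∀ n : Place K F → ℕ, ∑ v ∈ S, n v = k →
    Module.Finite K (regAt S ⧸ vanAt S n) ∧ finrank K (regAt S ⧸ vanAt S n) = k := by
  classical
  induction k with
  | zero =>
    intro n hn
    have h1 : vanAt S n = ⊤ := by
      rw [eq_top_iff]
      intro f _
      rw [mem_vanAt]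
      intro v hv
      rw [Finset.sum_eq_zero_iff] at hn
      rw [hn v hv]
      simpa using f.2 v hv
    rw [h1]
    exact ⟨inferInstance, finrank_zero_of_subsingleton⟩
  | succ k ih =>
    intro n hn
    obtain ⟨v, hv, hnv⟩ : ∃ v ∈ S, n v ≠ 0 := by
      by_contra hcon
      push Not at hcon
      rw [Finset.sum_eq_zero hcon] at hn
      omega
    obtain ⟨j, hj⟩ : ∃ j, n v = j + 1 := Nat.exists_eq_succ_of_ne_zero hnv
    set n' : Place K F → ℕ := Function.update n v j with hn'
    have hn'v : n' v = j := by simp [hn']
    have hn'w : ∀ w, w ≠ v → n' w = n w := fun w hw => by simp [hn', hw]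
    have hsum : ∑ w ∈ S, n' w = k := by
      have h1 : ∑ w ∈ S.erase v, n' w = ∑ w ∈ S.erase v, n w :=
        Finset.sum_congr rfl fun w hw => hn'w w (Finset.ne_of_mem_erase hw)
      have h2 := Finset.add_sum_erase S n hv
      have h3 := Finset.add_sum_erase S n' hv
      omega
    obtain ⟨hfin, hrk⟩ := ih n' hsum
    obtain ⟨t, ht0, ht⟩ := exists_ord_eq_one v
    obtain ⟨m, hm⟩ := exists_approx S (fun w => if w = v then t ^ j else 0)
      (fun w => -(n w : ℤ))
    have htj : v.adicValuation (t ^ j) = exp (-(j : ℤ)) := by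
      rw [v.adicValuation_eq_exp_neg_ord (pow_ne_zero _ ht0), ord_pow, ht, mul_one]
    have hmv : v.adicValuation m = exp (-(j : ℤ)) := by
      have h1 := hm v hv
      simp only [if_true] at h1
      have h2 : v.adicValuation (m - t ^ j) < v.adicValuation (t ^ j) := by
        refine h1.trans_lt ?_
        rw [htj, exp_lt_exp, hj]
        push_cast
        omega
      have h3 := Valuation.map_add_eq_of_lt_left v.adicValuation h2
      rw [add_sub_cancel, htj] at h3
      exact h3
    have hmw : ∀ w ∈ S, w ≠ v → w.adicValuation m ≤ exp (-(n w : ℤ)) := by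
      intro w hw hwv
      have h1 := hm w hw
      simpa [hwv] using h1
    have hmS : m ∈ regAt S := by
      intro w hw
      by_cases hwv : w = v
      · rw [hwv, hmv, ← exp_zero, exp_le_exp]
        omega
      · refine (hmw w hw hwv).trans ?_
        rw [← exp_zero, exp_le_exp]
        omega
    have hmN : (⟨m, hmS⟩ : regAt S) ∉ vanAt S n := by
      intro h
      have h1 := h v hv
      change v.adicValuation m ≤ _ at h1
      rw [hmv, exp_le_exp, hj] at h1
      push_cast at h1
      omega
    have hsup : vanAt S n ⊔ K ∙ (⟨m, hmS⟩ : regAt S) = vanAt S n' := by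
      apply le_antisymm
      · refine sup_le ?_ ?_
        · intro f hf w hw
          refine (hf w hw).trans ?_
          rw [exp_le_exp]
          by_cases hwv : w = v
          · rw [hwv, hn'v, hj]; push_cast; omega
          · rw [hn'w w hwv]
        · rw [Submodule.span_singleton_le_iff_mem]
          intro w hw
          change w.adicValuation m ≤ _
          by_cases hwv : w = v
          · rw [hwv, hn'v, hmv]
          · rw [hn'w w hwv]
            exact hmw w hw hwv
      · intro f hf
        have h1 : v.adicValuation (f : F) ≤ exp ((-(n v : ℤ)) + 1) := by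
          have := hf v hv
          rw [hn'v] at this
          rw [hj]
          push_cast
          rwa [neg_add_rev, neg_add_cancel_comm]
        obtain ⟨c, hc⟩ := exists_sub_smul_le v (f := (f : F)) (m := m) (n := -(n v : ℤ))
          (by rw [hmv, exp_le_exp, hj]; push_cast; omega)
          (by rw [hmv, exp_le_exp, hj]; push_cast; omega) h1
        rw [Submodule.mem_sup]
        refine ⟨f - c • ⟨m, hmS⟩, ?_, c • ⟨m, hmS⟩,
          Submodule.smul_mem _ _ (Submodule.mem_span_singleton_self _), sub_add_cancel _ _⟩
        intro w hw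
        change w.adicValuation ((f : F) - c • m) ≤ _
        by_cases hwv : w = v
        · rw [hwv]; exact hc
        · refine (Valuation.map_sub _ _ _).trans (max_le ?_ ?_)
          · have := hf w hw
            rwa [hn'w w hwv] at this
          · rw [Algebra.smul_def, map_mul]
            exact (mul_le_of_le_one_left' (w.adicValuation_algebraMap_le_one c)).trans
              (hmw w hw hwv)
    haveI : Module.Finite K (regAt S ⧸ (vanAt S n ⊔ K ∙ (⟨m, hmS⟩ : regAt S))) := by
      rw [hsup]; exact hfin
    obtain ⟨h1, h2⟩ := finrank_quotient_of_sup_span (vanAt S n) hmN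
    refine ⟨h1, ?_⟩
    rw [h2, hsup, hrk]

/-- The number of zeros of `x` is at most `[F : K(x)]`. -/
theorem sum_ord_le {x : F} (hx : Transcendental K x) (hS : ∀ v ∈ S, 0 < v.ord x) :
    ∑ v ∈ S, v.ord x ≤ finrank K⟮x⟯ F := by
  haveI := IsFnField.finiteDimensional hx
  have hx0 : x ≠ 0 := transcendental_ne_zero hx
  set n : Place K F → ℕ := fun v => (v.ord x).toNat with hn
  obtain ⟨hfin, hrk⟩ := finrank_quotient_vanAt S _ n rfl
  set d := ∑ v ∈ S, n v with hd
  let b := finBasisOfFinrankEq K (regAt S ⧸ vanAt S n) hrk
  have hlift : ∀ i, ∃ e : regAt S, (vanAt S n).mkQ e = b i := fun i =>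
    Submodule.mkQ_surjective _ _
  choose e he using hlift
  have hvx : ∀ v ∈ S, v.adicValuation x = exp (-(n v : ℤ)) := by
    intro v hv
    rw [v.adicValuation_eq_exp_neg_ord hx0, hn]
    have := hS v hv
    simp only
    congr 1
    omega
  have hind : LinearIndependent K⟮x⟯ (fun i => (e i : F)) := by
    apply linearIndependent_of_mod (fun i => (e i : F)) (regAt S) hx0
    · intro f hf v hv
      rw [map_mul, hvx v hv]
      refine (mul_le_of_le_one_left' ?_).trans (hf v hv)
      rw [← exp_zero, exp_le_exp]
      omega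
    · intro i
      exact (e i).2
    · rintro c ⟨g, hg, hc⟩
      have h1 : (∑ i, c i • e i) ∈ vanAt S n := by
        intro v hv
        have h2 : ((∑ i, c i • e i : regAt S) : F) = ∑ i, c i • (e i : F) := by
          simp
        rw [h2, hc, map_mul, hvx v hv]
        exact mul_le_of_le_one_right' (hg v hv)
      have h3 : ∑ i, c i • b i = 0 := by
        rw [← (Submodule.Quotient.mk_eq_zero (vanAt S n)).mpr h1]
        change _ = (vanAt S n).mkQ (∑ i, c i • e i)
        rw [map_sum]
        exact Finset.sum_congr rfl fun i _ => by rw [map_smul, he i]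
      funext i
      exact Fintype.linearIndependent_iff.mp b.linearIndependent c h3 i
  have h1 := hind.fintype_card_le_finrank
  rw [Fintype.card_fin] at h1
  calc ∑ v ∈ S, v.ord x = ∑ v ∈ S, (n v : ℤ) := by
        refine Finset.sum_congr rfl fun v hv => ?_
        have := hS v hv
        simp only [hn]
        omega
    _ = (d : ℤ) := by rw [hd]; push_cast; rfl
    _ ≤ _ := by exact_mod_cast h1

end Upper

theorem finite_zeros_transcendental {x : F} (hx : Transcendental K x) :
    {v : Place K F | 0 < v.ord x}.Finite := by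
  by_contra hinf
  obtain ⟨t, ht, hcard⟩ := Set.Infinite.exists_subset_card_eq hinf (finrank K⟮x⟯ F + 1)
  have h1 := sum_ord_le t hx (fun v hv => ht hv)
  have h2 : (t.card : ℤ) ≤ ∑ v ∈ t, v.ord x := by
    have : ∑ v ∈ t, (1 : ℤ) ≤ ∑ v ∈ t, v.ord x := Finset.sum_le_sum fun v hv => ht hv
    simpa using this
  omega

theorem finite_zeros (f : F) : {v : Place K F | 0 < v.ord f}.Finite := by
  by_cases hf : Transcendental K f
  · exact finite_zeros_transcendental hf
  · have : {v : Place K F | 0 < v.ord f} = ∅ := by
      ext v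
      simp only [Set.mem_ofPred_eq, Set.mem_empty_iff_false, iff_false, not_lt]
      rw [ord_eq_zero_of_isAlgebraic v (not_not.mp hf)]
    rw [this]
    exact Set.finite_empty

theorem finite_support_ord (f : F) : {v : Place K F | v.ord f ≠ 0}.Finite := by
  refine ((finite_zeros f).union (finite_zeros f⁻¹)).subset ?_
  intro v hv
  rw [Set.mem_ofPred_eq] at hv
  rcases lt_or_gt_of_ne hv with h | h
  · right
    change 0 < v.ord f⁻¹
    rw [v.ord_inv]
    linarith
  · exact Or.inl h

/-- The divisor of a function. -/
noncomputable def divOf (f : F) : Divisor K F :=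
  Finsupp.ofSupportFinite (fun v => v.ord f) (finite_support_ord f)

@[simp] theorem divOf_apply (f : F) (v : Place K F) : divOf f v = v.ord f := rfl

theorem divOf_mul {f g : F} (hf : f ≠ 0) (hg : g ≠ 0) :
    divOf (K := K) (f * g) = divOf f + divOf g := by
  ext v
  simp [v.ord_mul hf hg]

theorem divOf_inv (f : F) : divOf (K := K) f⁻¹ = -divOf f := by
  ext v
  simp [v.ord_inv]

theorem divOf_pow (f : F) (n : ℕ) : divOf (K := K) (f ^ n) = n • divOf f := by
  ext v
  simp [ord_pow]

end Fermat.Agent.RR
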