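import Mathlib
import Fermat.Agent.RR.Degree

/-!
# Finiteness of `L(D)`, degree of principal divisors, Riemann's inequality
-/

set_option autoImplicit false
set_option linter.unusedSectionVars false
set_option linter.style.haveILetI false

open WithZero AlgebraicCurve Fermat.Agent.FF IntermediateField IsDedekindDomain Module
open scoped IntermediateField.algebraAdjoinAdjoin

namespace Fermat.Agent.RR

variable {K F : Type*} [Field K] [Field F] [Algebra K F]

section Induction

theorem divisor_le_induction {D : Divisor K F} {P : Divisor K F → Prop} (h0 : P D)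
    (hs : ∀ E v, D ≤ E → P E → P (E + Finsupp.single v 1)) {E : Divisor K F} (h : D ≤ E) : P E := by
  have key : ∀ f : Place K F →₀ ℕ, ∀ E, D ≤ E → P E →
      P (E + f.mapRange (Nat.cast : ℕ → ℤ) rfl) := by
    intro f
    induction f using Finsupp.induction_linear with
    | zero => intro E hE hP; simpa using hP
    | add f g hf hg =>
      intro E hE hP
      have h1 : E + (f + g).mapRange (Nat.cast : ℕ → ℤ) rfl =
          (E + f.mapRange (Nat.cast : ℕ → ℤ) rfl) + g.mapRange (Nat.cast : ℕ → ℤ) rfl := by
        ext v
        simp
        ring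
      rw [h1]
      refine hg _ ?_ (hf E hE hP)
      refine hE.trans ?_
      intro v
      simp
    | single v n =>
      intro E hE hP
      induction n with
      | zero => simpa using hP
      | succ n ih =>
        have h1 : E + (Finsupp.single v (n + 1)).mapRange (Nat.cast : ℕ → ℤ) rfl =
            (E + (Finsupp.single v n).mapRange (Nat.cast : ℕ → ℤ) rfl) + Finsupp.single v 1 := by
          rw [Finsupp.mapRange_single, Finsupp.mapRange_single, add_assoc, ← Finsupp.single_add]
          push_cast
          rfl
        rw [h1]
        refine hs _ v (hE.trans ?_) ih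
        intro w
        classical
        rw [Finsupp.add_apply, Finsupp.mapRange_single, Finsupp.single_apply]
        split_ifs <;> omega
  have h1 := key ((E - D).mapRange Int.toNat rfl) D le_rfl h0
  have h2 : D + ((E - D).mapRange Int.toNat rfl).mapRange (Nat.cast : ℕ → ℤ) rfl = E := by
    ext v
    have := h v
    simp
    omega
  rwa [h2] at h1

theorem single_one_le {D E : Divisor K F} (v : Place K F) (h : D ≤ E) :
    D ≤ E + Finsupp.single v 1 := by
  intro w
  have := h w
  classical
  rw [Finsupp.add_apply, Finsupp.single_apply]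
  split_ifs <;> omega

end Induction

variable [IsAlgClosed K] [IsFnField K F]

theorem degree_single' (v : Place K F) (n : ℤ) :
    Divisor.degree (Finsupp.single v n : Divisor K F) = n := by
  rw [Divisor.degree_single, deg_eq_one]; simp

theorem degree_eq_sum (D : Divisor K F) : Divisor.degree D = D.sum fun _ n => n := by
  simp [Divisor.degree, Finsupp.liftAddHom_apply, deg_eq_one]

theorem degree_eq_sum_of_support_subset (D : Divisor K F) {S : Finset (Place K F)}
    (h : D.support ⊆ S) : Divisor.degree D = ∑ v ∈ S, D v := by
  rw [degree_eq_sum, Finsupp.sum_of_support_subset D h _ fun _ _ => rfl]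

theorem degree_mono {D E : Divisor K F} (h : D ≤ E) : Divisor.degree D ≤ Divisor.degree E := by
  refine divisor_le_induction (P := fun E => Divisor.degree D ≤ Divisor.degree E) le_rfl ?_ h
  intro E v _ hE
  rw [map_add, degree_single']
  omega

theorem riemannRochSpace_mono {D E : Divisor K F} (h : D ≤ E) :
    riemannRochSpace D ≤ riemannRochSpace E := fun _ hf v =>
  (hf v).trans (exp_le_exp.mpr (Finsupp.le_def.mp h v))

theorem riemannRochSpace_zero : riemannRochSpace (0 : Divisor K F) = K ∙ (1 : F) := by
  apply le_antisymm
  · intro f hf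
    have h1 : ∀ v : Place K F, 0 ≤ v.ord f := by
      intro v
      rcases mem_riemannRochSpace_iff.mp hf v with h | h
      · rw [h]; simp
      · simpa using h
    obtain ⟨a, rfl⟩ := exists_algebraMap_eq_of_forall_ord_nonneg h1
    rw [Submodule.mem_span_singleton]
    exact ⟨a, (Algebra.algebraMap_eq_smul_one a).symm⟩
  · rw [Submodule.span_singleton_le_iff_mem]
    intro v
    simp

/-- one step: if `L(D + v) ≠ L(D)` then `L(D + v) = L(D) + K m`. -/
theorem riemannRochSpace_add_single {D : Divisor K F} {v : Place K F} {m : F}
    (hm : m ∈ riemannRochSpace (D + Finsupp.single v 1)) (hm' : m ∉ riemannRochSpace D) :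
    riemannRochSpace (D + Finsupp.single v 1) = riemannRochSpace D ⊔ K ∙ m := by
  classical
  have hw : ∀ w, w ≠ v → (D + Finsupp.single v 1 : Divisor K F) w = D w := by
    intro w hw
    rw [Finsupp.add_apply, Finsupp.single_apply, if_neg hw.symm, add_zero]
  have hv : (D + Finsupp.single v 1 : Divisor K F) v = D v + 1 := by simp
  have hmv : ¬ v.adicValuation m ≤ exp (D v) := by
    intro h
    apply hm'
    intro w
    by_cases hwv : w = v
    · rw [hwv]; exact h
    · rw [← hw w hwv]; exact hm w
  have hmv' : v.adicValuation m ≤ exp (D v + 1) := by rw [← hv]; exact hm v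
  apply le_antisymm
  · intro f hf
    have hfv : v.adicValuation f ≤ exp (D v + 1) := by rw [← hv]; exact hf v
    obtain ⟨c, hc⟩ := exists_sub_smul_le v hmv hmv' hfv
    rw [Submodule.mem_sup]
    refine ⟨f - c • m, ?_, c • m,
      Submodule.smul_mem _ _ (Submodule.mem_span_singleton_self _), sub_add_cancel _ _⟩
    intro w
    by_cases hwv : w = v
    · rw [hwv]; exact hc
    · rw [← hw w hwv]
      have h1 := (riemannRochSpace (D + Finsupp.single v 1)).sub_mem hf
        (Submodule.smul_mem _ c hm)
      exact h1 w
  · refine sup_le (riemannRochSpace_mono (single_one_le v le_rfl)) ?_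
    rw [Submodule.span_singleton_le_iff_mem]
    exact hm

theorem finite_add_single {D : Divisor K F} (v : Place K F)
    (h : Module.Finite K (riemannRochSpace D)) :
    Module.Finite K (riemannRochSpace (D + Finsupp.single v 1)) := by
  by_cases hle : riemannRochSpace (D + Finsupp.single v 1) ≤ riemannRochSpace D
  · exact Submodule.finiteDimensional_of_le hle
  · obtain ⟨m, hm, hm'⟩ := Set.not_subset.mp hle
    rw [riemannRochSpace_add_single hm hm']
    infer_instance

instance finite_riemannRochSpace (D : Divisor K F) : Module.Finite K (riemannRochSpace D) := by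
  have h0 : (0 : Divisor K F) ≤ D ⊔ 0 := le_sup_right
  have h1 : Module.Finite K (riemannRochSpace (D ⊔ 0)) := by
    refine divisor_le_induction (P := fun E => Module.Finite K (riemannRochSpace E)) ?_ ?_ h0
    · rw [riemannRochSpace_zero]; infer_instance
    · intro E v _ hE
      exact finite_add_single v hE
  exact Submodule.finiteDimensional_of_le (riemannRochSpace_mono (le_sup_left : D ≤ D ⊔ 0))

/-- `ℓ(D)` -/
noncomputable def ell (D : Divisor K F) : ℕ := finrank K (riemannRochSpace D)

theorem ell_zero : ell (0 : Divisor K F) = 1 := by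
  rw [ell, riemannRochSpace_zero]
  exact finrank_span_singleton one_ne_zero

theorem ell_mono {D E : Divisor K F} (h : D ≤ E) : ell D ≤ ell E :=
  Submodule.finrank_mono (riemannRochSpace_mono h)

theorem ell_add_single_le (D : Divisor K F) (v : Place K F) :
    ell (D + Finsupp.single v 1) ≤ ell D + 1 := by
  by_cases hle : riemannRochSpace (D + Finsupp.single v 1) ≤ riemannRochSpace D
  · have := Submodule.finrank_mono hle
    unfold ell
    omega
  · obtain ⟨m, hm, hm'⟩ := Set.not_subset.mp hle
    unfold ell
    rw [riemannRochSpace_add_single hm hm']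
    have h1 := Submodule.finrank_add_le_finrank_add_finrank (riemannRochSpace D) (K ∙ m)
    have h2 : finrank K (K ∙ m) = 1 := by
      apply finrank_span_singleton
      rintro rfl
      exact hm' (Submodule.zero_mem _)
    omega

theorem ell_sub_le {D E : Divisor K F} (h : D ≤ E) :
    (ell E : ℤ) - ell D ≤ Divisor.degree E - Divisor.degree D := by
  refine divisor_le_induction
    (P := fun E => (ell E : ℤ) - ell D ≤ Divisor.degree E - Divisor.degree D) (by simp) ?_ h
  intro E v _ hE
  have := ell_add_single_le E v
  rw [map_add, degree_single']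
  omega

theorem ell_le_of_nonneg {D : Divisor K F} (h : 0 ≤ D) :
    (ell D : ℤ) ≤ Divisor.degree D + 1 := by
  have := ell_sub_le h
  rw [ell_zero, map_zero] at this
  push_cast at this
  omega

/-- the pole divisor of a function -/
noncomputable def poleDiv (x : F) : Divisor K F :=
  Finsupp.ofSupportFinite (fun v => max 0 (-v.ord x)) ((finite_support_ord x).subset (by
    intro v hv
    rw [Function.mem_support] at hv
    intro h
    apply hv
    rw [h]
    simp))

@[simp] theorem poleDiv_apply (x : F) (v : Place K F) : poleDiv x v = max 0 (-v.ord x) := rfl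

theorem poleDiv_nonneg (x : F) : 0 ≤ poleDiv (K := K) x := fun v => by simp

theorem mem_riemannRochSpace_poleDiv (x : F) : x ∈ riemannRochSpace (poleDiv (K := K) x) := by
  rw [mem_riemannRochSpace_iff]
  intro v
  right
  rw [poleDiv_apply]
  omega

theorem mul_mem_riemannRochSpace {D E : Divisor K F} {f g : F} (hf : f ∈ riemannRochSpace D)
    (hg : g ∈ riemannRochSpace E) : f * g ∈ riemannRochSpace (D + E) := by
  intro v
  rw [map_mul, Finsupp.add_apply, exp_add]
  exact mul_le_mul' (hf v) (hg v)

theorem pow_mem_riemannRochSpace {D : Divisor K F} {f : F} (hf : f ∈ riemannRochSpace D) (n : ℕ) :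
    f ^ n ∈ riemannRochSpace (n • D) := by
  induction n with
  | zero => rw [pow_zero, zero_smul, riemannRochSpace_zero]; exact Submodule.mem_span_singleton_self _
  | succ n ih => rw [pow_succ, succ_nsmul]; exact mul_mem_riemannRochSpace ih hf

theorem divOf_eq_sub (x : F) : divOf (K := K) x = poleDiv x⁻¹ - poleDiv x := by
  ext v
  rw [Finsupp.sub_apply, poleDiv_apply, poleDiv_apply, divOf_apply, v.ord_inv]
  omega

theorem degree_poleDiv_le {x : F} (hx : Transcendental K x) :
    Divisor.degree (poleDiv (K := K) x) ≤ finrank K⟮x⟯ F := by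
  have h := sum_ord_le (K := K) (poleDiv (K := K) x).support (transcendental_inv' hx) (by
    intro v hv
    rw [Finsupp.mem_support_iff, poleDiv_apply] at hv
    rw [v.ord_inv]
    omega)
  rw [adjoin_simple_inv'] at h
  refine le_trans (le_of_eq ?_) h
  rw [degree_eq_sum_of_support_subset _ subset_rfl]
  refine Finset.sum_congr rfl fun v hv => ?_
  rw [Finsupp.mem_support_iff, poleDiv_apply] at hv
  rw [poleDiv_apply, v.ord_inv]
  omega

/-- lower bound for `ℓ(kP + C)` -/
theorem exists_ell_ge {x : F} (hx : Transcendental K x) :
    ∃ C : Divisor K F, 0 ≤ C ∧ ∀ k : ℕ,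
      finrank K⟮x⟯ F * (k + 1) ≤ ell (k • poleDiv (K := K) x + C) := by
  classical
  haveI := IsFnField.finiteDimensional hx
  let u := finBasis K⟮x⟯ F
  refine ⟨∑ i, poleDiv (u i), Finset.sum_nonneg fun i _ => poleDiv_nonneg _, fun k => ?_⟩
  set C : Divisor K F := ∑ i, poleDiv (u i) with hC
  have hpow : LinearIndependent K (fun i : Fin (k + 1) =>
      (⟨x, IntermediateField.mem_adjoin_simple_self K x⟩ : K⟮x⟯) ^ (i : ℕ)) := by
    have h1 : Transcendental K (⟨x, IntermediateField.mem_adjoin_simple_self K x⟩ : K⟮x⟯) := by
      rw [← transcendental_algebraMap_iff (A := F) (algebraMap K⟮x⟯ F).injective]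
      exact hx
    have h2 := (Polynomial.basisMonomials K).linearIndependent.map'
      (Polynomial.aeval (⟨x, IntermediateField.mem_adjoin_simple_self K x⟩ : K⟮x⟯)).toLinearMap
      (LinearMap.ker_eq_bot.mpr (transcendental_iff_injective.mp h1))
    have h3 := h2.comp (fun i : Fin (k + 1) => (i : ℕ)) Fin.val_injective
    have h4 : ((Polynomial.aeval
        (⟨x, IntermediateField.mem_adjoin_simple_self K x⟩ : K⟮x⟯)).toLinearMap ∘
        (Polynomial.basisMonomials K)) ∘ (fun i : Fin (k + 1) => (i : ℕ)) =
        fun i : Fin (k + 1) =>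
          (⟨x, IntermediateField.mem_adjoin_simple_self K x⟩ : K⟮x⟯) ^ (i : ℕ) := by
      funext i
      simp [Polynomial.aeval_monomial]
    rw [h4] at h3
    exact h3
  have hind := linearIndependent_smul hpow u.linearIndependent
  have hmem : ∀ p : Fin (k + 1) × Fin (finrank K⟮x⟯ F),
      (⟨x, IntermediateField.mem_adjoin_simple_self K x⟩ : K⟮x⟯) ^ (p.1 : ℕ) • u p.2 ∈
        riemannRochSpace (k • poleDiv (K := K) x + C) := by
    intro p
    rw [Algebra.smul_def]
    change x ^ (p.1 : ℕ) * u p.2 ∈ _
    apply mul_mem_riemannRochSpace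
    · refine riemannRochSpace_mono ?_ (pow_mem_riemannRochSpace
        (mem_riemannRochSpace_poleDiv (K := K) x) p.1)
      have := p.1.2
      exact nsmul_le_nsmul_left (poleDiv_nonneg x) (by omega)
    · refine riemannRochSpace_mono ?_ (mem_riemannRochSpace_poleDiv (K := K) (u p.2))
      exact Finset.single_le_sum (f := fun i => poleDiv (u i)) (fun i _ => poleDiv_nonneg _)
        (Finset.mem_univ p.2)
  have hind' : LinearIndependent K (fun p : Fin (k + 1) × Fin (finrank K⟮x⟯ F) =>
      (⟨_, hmem p⟩ : riemannRochSpace (k • poleDiv (K := K) x + C))) :=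
    LinearIndependent.of_comp (Submodule.subtype _) hind
  have h1 := hind'.fintype_card_le_finrank
  rw [Fintype.card_prod, Fintype.card_fin, Fintype.card_fin] at h1
  unfold ell
  rw [mul_comm]
  exact h1

theorem degree_poleDiv {x : F} (hx : Transcendental K x) :
    Divisor.degree (poleDiv (K := K) x) = finrank K⟮x⟯ F := by
  apply le_antisymm (degree_poleDiv_le hx)
  obtain ⟨C, hC0, hC⟩ := exists_ell_ge hx
  by_contra hlt
  push Not at hlt
  set k : ℕ := (Divisor.degree C + 1).toNat with hk
  have h1 := hC k
  have h2 : (ell (k • poleDiv (K := K) x + C) : ℤ) ≤ Divisor.degree (k • poleDiv (K := K) x + C) + 1 :=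
    ell_le_of_nonneg (add_nonneg (nsmul_nonneg (poleDiv_nonneg x) k) hC0)
  rw [map_add, map_nsmul, nsmul_eq_mul] at h2
  have h3 : 0 ≤ Divisor.degree C := by
    have := degree_mono hC0
    simpa using this
  have h4 : (k : ℤ) = Divisor.degree C + 1 := by omega
  have h5 : ((finrank K⟮x⟯ F * (k + 1) : ℕ) : ℤ) ≤ ell (k • poleDiv (K := K) x + C) := by
    exact_mod_cast h1
  push_cast at h5
  have h6 : (0 : ℤ) ≤ Divisor.degree (poleDiv (K := K) x) := by
    have := degree_mono (poleDiv_nonneg (K := K) x)
    simpa using this
  have h7 : (0 : ℤ) ≤ k * (finrank K⟮x⟯ F - 1 - Divisor.degree (poleDiv (K := K) x)) := by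
    apply mul_nonneg <;> omega
  nlinarith

theorem degree_divOf (f : F) : Divisor.degree (divOf (K := K) f) = 0 := by
  by_cases hf : Transcendental K f
  · rw [divOf_eq_sub, map_sub, degree_poleDiv hf, degree_poleDiv (transcendental_inv' hf),
      adjoin_simple_inv', sub_self]
  · have h0 : divOf (K := K) f = 0 := by
      ext v
      rw [divOf_apply, ord_eq_zero_of_isAlgebraic v (not_not.mp hf)]
      rfl
    rw [h0, map_zero]

variable (K F) in
theorem hasPrincipalDivisors : HasPrincipalDivisors K F where
  exists_divisor f _ := ⟨divOf f, fun _ => rfl, degree_divOf f⟩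

theorem ell_eq_zero_of_degree_neg {D : Divisor K F} (h : Divisor.degree D < 0) : ell D = 0 := by
  have h1 : riemannRochSpace D = ⊥ := by
    rw [eq_bot_iff]
    intro f hf
    rw [Submodule.mem_bot]
    by_contra hf0
    have h2 : 0 ≤ D + divOf f := by
      intro v
      have := (mem_riemannRochSpace_iff.mp hf v).resolve_left hf0
      simp only [Finsupp.coe_zero, Pi.zero_apply, Finsupp.add_apply, divOf_apply]
      omega
    have h3 := degree_mono h2
    rw [map_zero, map_add, degree_divOf] at h3
    omega
  rw [ell, h1]
  exact finrank_bot K F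

theorem ell_le_degree_add_one {D : Divisor K F} (h : 0 ≤ Divisor.degree D) :
    (ell D : ℤ) ≤ Divisor.degree D + 1 := by
  by_cases h0 : ell D = 0
  · rw [h0]; push_cast; omega
  · -- pick a nonzero element
    have h1 : riemannRochSpace D ≠ ⊥ := by
      intro h2
      apply h0
      rw [ell, h2]
      exact finrank_bot K F
    obtain ⟨f, hf, hf0⟩ := Submodule.exists_mem_ne_zero_of_ne_bot h1
    have h2 : 0 ≤ D + divOf f := by
      intro v
      have := (mem_riemannRochSpace_iff.mp hf v).resolve_left hf0
      simp only [Finsupp.coe_zero, Pi.zero_apply, Finsupp.add_apply, divOf_apply]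
      omega
    have h3 := ell_le_of_nonneg h2
    rw [map_add, degree_divOf, add_zero] at h3
    have h4 : ell D ≤ ell (D + divOf f) := by
      let φ : riemannRochSpace D →ₗ[K] riemannRochSpace (D + divOf f) :=
        { toFun := fun g => ⟨f⁻¹ * g, by
            have := mul_mem_riemannRochSpace (D := divOf f) (f := f⁻¹) (by
              rw [mem_riemannRochSpace_iff]
              intro v
              right
              rw [v.ord_inv, divOf_apply]) g.2
            rwa [add_comm] at this⟩
          map_add' := fun a b => by apply Subtype.ext; simp [mul_add]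
          map_smul' := fun c a => by apply Subtype.ext; simp }
      have hφ : Function.Injective φ := by
        intro a b hab
        have := congrArg Subtype.val hab
        change f⁻¹ * (a : F) = f⁻¹ * b at this
        exact Subtype.ext (mul_left_cancel₀ (inv_ne_zero hf0) this)
      exact LinearMap.finrank_le_finrank_of_injective hφ
    omega

end Fermat.Agent.RR
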