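import Mathlib
import Fermat.Agent.RR.Riemann

/-!
# Riemann's inequality and `H¹(D)`
-/

set_option autoImplicit false
set_option linter.unusedSectionVars false
set_option linter.style.haveILetI false

open WithZero AlgebraicCurve Fermat.Agent.FF IntermediateField IsDedekindDomain Module
open scoped IntermediateField.algebraAdjoinAdjoin

namespace Fermat.Agent.RR

variable {K F : Type*} [Field K] [Field F] [Algebra K F] [IsAlgClosed K] [IsFnField K F]

/-! ### Linear equivalence -/

theorem mem_riemannRochSpace_iff_divOf {D : Divisor K F} {f : F} (hf : f ≠ 0) :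
    f ∈ riemannRochSpace D ↔ 0 ≤ D + divOf f := by
  rw [mem_riemannRochSpace_iff]
  constructor
  · intro h v
    have := (h v).resolve_left hf
    simp only [Finsupp.coe_zero, Pi.zero_apply, Finsupp.add_apply, divOf_apply]
    omega
  · intro h v
    right
    have := h v
    simp only [Finsupp.coe_zero, Pi.zero_apply, Finsupp.add_apply, divOf_apply] at this
    omega

/-- multiplication by `f` gives `L(D + div f) ≃ L(D)`. -/
noncomputable def mulEquiv (D : Divisor K F) {f : F} (hf : f ≠ 0) :
    riemannRochSpace (D + divOf f) ≃ₗ[K] riemannRochSpace D where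
  toFun g := ⟨f * g, by
    intro v
    have h := g.2 v
    rw [map_mul, v.adicValuation_eq_exp_neg_ord hf]
    rw [Finsupp.add_apply, divOf_apply] at h
    calc exp (-v.ord f) * v.adicValuation (g : F) ≤ exp (-v.ord f) * exp (D v + v.ord f) := by
          gcongr
      _ = exp (D v) := by rw [← exp_add]; congr 1; ring⟩
  map_add' a b := by apply Subtype.ext; simp [mul_add]
  map_smul' c a := by apply Subtype.ext; simp
  invFun g := ⟨f⁻¹ * g, by
    intro v
    have h := g.2 v
    rw [map_mul, map_inv₀, v.adicValuation_eq_exp_neg_ord hf, Finsupp.add_apply, divOf_apply,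
      ← exp_neg]
    calc exp (-(-v.ord f)) * v.adicValuation (g : F) ≤ exp (-(-v.ord f)) * exp (D v) := by
          gcongr
      _ = exp (D v + v.ord f) := by rw [← exp_add]; congr 1; ring⟩
  left_inv g := by
    apply Subtype.ext
    simp [← mul_assoc, inv_mul_cancel₀ hf]
  right_inv g := by
    apply Subtype.ext
    simp [← mul_assoc, mul_inv_cancel₀ hf]

theorem ell_add_divOf (D : Divisor K F) {f : F} (hf : f ≠ 0) : ell (D + divOf f) = ell D :=
  (mulEquiv D hf).finrank_eq

theorem exists_mem_ne_zero_of_ell_pos {D : Divisor K F} (h : 0 < ell D) :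
    ∃ f ∈ riemannRochSpace D, f ≠ 0 := by
  apply Submodule.exists_mem_ne_zero_of_ne_bot
  intro h2
  rw [ell, h2, finrank_bot] at h
  omega

/-! ### The defect -/

/-- `deg D - ℓ(D)` -/
noncomputable def defect (D : Divisor K F) : ℤ := Divisor.degree D - ell D

theorem defect_mono {D E : Divisor K F} (h : D ≤ E) : defect D ≤ defect E := by
  have := ell_sub_le h
  unfold defect
  omega

theorem defect_add_divOf (D : Divisor K F) {f : F} (hf : f ≠ 0) :
    defect (D + divOf f) = defect D := by
  unfold defect
  rw [ell_add_divOf D hf, map_add, degree_divOf, add_zero]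

theorem exists_transcendental : ∃ x : F, Transcendental K x := by
  obtain ⟨x, hx, -⟩ := exists_separating K F
  exact ⟨x, hx⟩

variable (K F) in
/-- **Riemann's theorem**: the defect is bounded above. -/
theorem exists_defect_le : ∃ c : ℤ, ∀ D : Divisor K F, defect D ≤ c := by
  obtain ⟨x, hx⟩ := exists_transcendental (K := K) (F := F)
  obtain ⟨C, hC0, hC⟩ := exists_ell_ge hx
  haveI := IsFnField.finiteDimensional hx
  set n := finrank K⟮x⟯ F with hn
  have hn0 : 0 < n := finrank_pos
  refine ⟨Divisor.degree C - n, fun D => ?_⟩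
  set k : ℕ := (Divisor.degree (D ⊔ 0)).toNat with hk
  have hD0 : (0 : Divisor K F) ≤ D ⊔ 0 := le_sup_right
  have hdeg0 : 0 ≤ Divisor.degree (D ⊔ 0) := by
    have := degree_mono hD0
    simpa using this
  have hkD : (k : ℤ) = Divisor.degree (D ⊔ 0) := by omega
  set E := k • poleDiv (K := K) x + C with hE
  have hEl := hC k
  rw [← hE] at hEl
  have hdegE : Divisor.degree E = k * n + Divisor.degree C := by
    rw [hE, map_add, map_nsmul, degree_poleDiv hx, nsmul_eq_mul]
  have h1 : (ell E : ℤ) - ell (E - (D ⊔ 0)) ≤ Divisor.degree E - Divisor.degree (E - (D ⊔ 0)) :=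
    ell_sub_le (sub_le_self E hD0)
  rw [map_sub] at h1
  have hEl' : ((n : ℤ) * (k + 1)) ≤ ell E := by exact_mod_cast hEl
  have h2 : 0 < ell (E - (D ⊔ 0)) := by
    have h3 : (k : ℤ) + 1 ≤ n * (k + 1) := by nlinarith
    omega
  obtain ⟨f, hf, hf0⟩ := exists_mem_ne_zero_of_ell_pos h2
  rw [mem_riemannRochSpace_iff_divOf hf0] at hf
  have h3 : D ≤ E + divOf f := by
    refine (le_sup_left : D ≤ D ⊔ 0).trans ?_
    intro v
    have := hf v
    simp only [Finsupp.coe_zero, Pi.zero_apply, Finsupp.add_apply, Finsupp.sub_apply,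
      divOf_apply] at this ⊢
    omega
  have h4 := defect_mono h3
  rw [defect_add_divOf E hf0] at h4
  refine h4.trans ?_
  unfold defect
  rw [hdegE]
  nlinarith

variable (K F) in
/-- a divisor with maximal defect -/
theorem exists_maxDefect : ∃ D₀ : Divisor K F, ∀ D : Divisor K F, defect D ≤ defect D₀ := by
  obtain ⟨c, hc⟩ := exists_defect_le K F
  obtain ⟨m, ⟨D₀, hD₀⟩, hm⟩ := Int.exists_greatest_of_bdd (P := fun z => ∃ D : Divisor K F, defect D = z)
    ⟨c, fun z hz => by obtain ⟨D, rfl⟩ := hz; exact hc D⟩ ⟨_, 0, rfl⟩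
  exact ⟨D₀, fun D => by rw [hD₀]; exact hm _ ⟨D, rfl⟩⟩

/-! ### Repartitions -/

theorem finite_of_mem_repartitions {α : Place K F → F} (hα : α ∈ repartitions K F) :
    {v : Place K F | ¬v.adicValuation (α v) ≤ 1}.Finite := by
  refine Algebra.adjoin_induction (p := fun α _ => {v : Place K F | ¬v.adicValuation (α v) ≤ 1}.Finite)
    ?_ ?_ ?_ ?_ hα
  · intro α h; exact h
  · intro f
    have h1 := finite_zeros (K := K) (F := F) f⁻¹
    refine h1.subset ?_
    intro v hv
    rw [Set.mem_ofPred_eq, Pi.algebraMap_apply, v.not_adicValuation_le_one_iff] at hv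
    rw [Set.mem_ofPred_eq, v.ord_inv]
    change v.ord f < 0 at hv
    omega
  · intro α β _ _ hα hβ
    refine (hα.union hβ).subset ?_
    intro v hv
    by_contra hcon
    rw [Set.mem_union, not_or, Set.mem_ofPred_eq, Set.mem_ofPred_eq, not_not, not_not] at hcon
    exact hv ((Valuation.map_add _ _ _).trans (max_le hcon.1 hcon.2))
  · intro α β _ _ hα hβ
    refine (hα.union hβ).subset ?_
    intro v hv
    by_contra hcon
    rw [Set.mem_union, not_or, Set.mem_ofPred_eq, Set.mem_ofPred_eq, not_not, not_not] at hcon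
    apply hv
    rw [Pi.mul_apply, map_mul]
    exact mul_le_one' hcon.1 hcon.2

theorem mem_repartitions_iff {α : Place K F → F} :
    α ∈ repartitions K F ↔ {v : Place K F | ¬v.adicValuation (α v) ≤ 1}.Finite :=
  ⟨finite_of_mem_repartitions, mem_repartitions_of_finite⟩

/-- each repartition lies in `A(E)` for some `E ≥ D`. -/
theorem exists_mem_repartitionsOf (D : Divisor K F) (α : repartitions K F) :
    ∃ E : Divisor K F, D ≤ E ∧ α ∈ repartitionsOf E := by
  have hfin := finite_of_mem_repartitions α.2
  set P : Divisor K F := Finsupp.ofSupportFinite (fun v => max 0 (-v.ord ((α : Place K F → F) v)))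
    (hfin.subset (by
      intro v hv
      rw [Function.mem_support] at hv
      rw [Set.mem_ofPred_eq, v.not_adicValuation_le_one_iff]
      by_contra hcon
      apply hv
      rw [max_eq_left]
      omega)) with hP
  refine ⟨D ⊔ P, le_sup_left, ?_⟩
  rw [mem_repartitionsOf_iff]
  intro v
  right
  have h1 : P v ≤ (D ⊔ P) v := by
    rw [Finsupp.sup_apply]
    exact le_sup_right
  have h2 : P v = max 0 (-v.ord ((α : Place K F → F) v)) := rfl
  omega

theorem repartitionsOf_add_single {D : Divisor K F} {v : Place K F} {m : repartitions K F}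
    (hm : m ∈ repartitionsOf (D + Finsupp.single v 1)) (hm' : m ∉ repartitionsOf D) :
    repartitionsOf (D + Finsupp.single v 1) = repartitionsOf D ⊔ K ∙ m := by
  classical
  have hw : ∀ w, w ≠ v → (D + Finsupp.single v 1 : Divisor K F) w = D w := by
    intro w hw
    rw [Finsupp.add_apply, Finsupp.single_apply, if_neg hw.symm, add_zero]
  have hv : (D + Finsupp.single v 1 : Divisor K F) v = D v + 1 := by simp
  have hmv : ¬ v.adicValuation ((m : Place K F → F) v) ≤ exp (D v) := by
    intro h
    apply hm'
    intro w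
    by_cases hwv : w = v
    · rw [hwv]; exact h
    · rw [← hw w hwv]; exact hm w
  have hmv' : v.adicValuation ((m : Place K F → F) v) ≤ exp (D v + 1) := by rw [← hv]; exact hm v
  apply le_antisymm
  · intro f hf
    have hfv : v.adicValuation ((f : Place K F → F) v) ≤ exp (D v + 1) := by rw [← hv]; exact hf v
    obtain ⟨c, hc⟩ := exists_sub_smul_le v hmv hmv' hfv
    rw [Submodule.mem_sup]
    refine ⟨f - c • m, ?_, c • m,
      Submodule.smul_mem _ _ (Submodule.mem_span_singleton_self _), sub_add_cancel _ _⟩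
    intro w
    by_cases hwv : w = v
    · rw [hwv]; exact hc
    · rw [← hw w hwv]
      have h1 := (repartitionsOf (D + Finsupp.single v 1)).sub_mem hf
        (Submodule.smul_mem _ c hm)
      exact h1 w
  · refine sup_le (repartitionsOf_mono (single_one_le v le_rfl)) ?_
    rw [Submodule.span_singleton_le_iff_mem]
    exact hm

/-- the repartition which is `a` at `v` and `0` elsewhere -/
noncomputable def singleRep [DecidableEq (Place K F)] (v : Place K F) (a : F) : repartitions K F :=
  ⟨Pi.single v a, mem_repartitions_of_finite ((Set.finite_singleton v).subset (by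
    intro w hw
    rw [Set.mem_singleton_iff]
    by_contra hne
    apply hw
    rw [Pi.single_eq_of_ne hne]
    simp))⟩

theorem exists_mem_notMem (D : Divisor K F) (v : Place K F) :
    ∃ m : repartitions K F, m ∈ repartitionsOf (D + Finsupp.single v 1) ∧ m ∉ repartitionsOf D := by
  classical
  obtain ⟨t, ht0, ht⟩ := exists_ord_eq_one v
  refine ⟨singleRep v (t ^ (-(D v + 1))), ?_, ?_⟩
  · rw [mem_repartitionsOf_iff]
    intro w
    by_cases hwv : w = v
    · right
      rw [hwv]
      change _ ≤ v.ord ((Pi.single v (t ^ (-(D v + 1))) : Place K F → F) v)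
      rw [Pi.single_eq_same, v.ord_zpow, ht]
      simp
    · left
      change (Pi.single v (t ^ (-(D v + 1))) : Place K F → F) w = 0
      rw [Pi.single_eq_of_ne hwv]
  · intro h
    rw [mem_repartitionsOf_iff] at h
    have h1 := h v
    change (Pi.single v (t ^ (-(D v + 1))) : Place K F → F) v = 0 ∨
      _ ≤ v.ord ((Pi.single v (t ^ (-(D v + 1))) : Place K F → F) v) at h1
    rw [Pi.single_eq_same, v.ord_zpow, ht] at h1
    rcases h1 with h1 | h1
    · exact zpow_ne_zero _ ht0 h1
    · omega

/-- the constant repartition -/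
noncomputable def constRep (f : F) : repartitions K F := algebraMap F (repartitions K F) f

theorem constRep_apply (f : F) (v : Place K F) :
    ((constRep f : repartitions K F) : Place K F → F) v = f := rfl

theorem constRep_mem_principal (f : F) : constRep f ∈ principalRepartitions K F := by
  rw [mem_principalRepartitions_iff]
  exact ⟨f, rfl⟩

theorem constRep_mem_repartitionsOf_iff {D : Divisor K F} {f : F} :
    constRep f ∈ repartitionsOf D ↔ f ∈ riemannRochSpace D := Iff.rfl

theorem mem_principal_iff {α : repartitions K F} :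
    α ∈ principalRepartitions K F ↔ ∃ f, α = constRep f := by
  rw [mem_principalRepartitions_iff]
  constructor
  · rintro ⟨f, hf⟩
    exact ⟨f, Subtype.ext hf⟩
  · rintro ⟨f, rfl⟩
    exact ⟨f, rfl⟩

/-- the submodule `A(D) + F`. -/
noncomputable abbrev NN (D : Divisor K F) : Submodule K (repartitions K F) :=
  repartitionsOf D ⊔ principalRepartitions K F

theorem NN_mono {D E : Divisor K F} (h : D ≤ E) : NN D ≤ NN E :=
  sup_le_sup_right (repartitionsOf_mono h) _

theorem NN_add_single_of_ne {D : Divisor K F} {v : Place K F}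
    (h : ¬ riemannRochSpace (D + Finsupp.single v 1) ≤ riemannRochSpace D) :
    NN (D + Finsupp.single v 1) = NN D := by
  obtain ⟨m, hm, hm'⟩ := Set.not_subset.mp h
  have h1 : repartitionsOf (D + Finsupp.single v 1) = repartitionsOf D ⊔ K ∙ (constRep m) :=
    repartitionsOf_add_single (constRep_mem_repartitionsOf_iff.mpr hm)
      (fun h => hm' (constRep_mem_repartitionsOf_iff.mp h))
  unfold NN
  rw [h1, sup_assoc]
  congr 1
  rw [sup_eq_right, Submodule.span_singleton_le_iff_mem]
  exact constRep_mem_principal m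

theorem exists_NN_add_single_of_le {D : Divisor K F} {v : Place K F}
    (h : riemannRochSpace (D + Finsupp.single v 1) ≤ riemannRochSpace D) :
    ∃ m, m ∉ NN D ∧ NN (D + Finsupp.single v 1) = NN D ⊔ K ∙ m := by
  obtain ⟨m, hm, hm'⟩ := exists_mem_notMem D v
  refine ⟨m, ?_, ?_⟩
  · intro hmN
    rw [Submodule.mem_sup] at hmN
    obtain ⟨a, ha, b, hb, hab⟩ := hmN
    obtain ⟨f, rfl⟩ := mem_principal_iff.mp hb
    have h1 : constRep f ∈ repartitionsOf (D + Finsupp.single v 1) := by
      have h2 : constRep f = m - a := by rw [← hab]; abel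
      rw [h2]
      exact Submodule.sub_mem _ hm (repartitionsOf_mono (single_one_le v le_rfl) ha)
    have h2 : constRep f ∈ repartitionsOf D :=
      constRep_mem_repartitionsOf_iff.mpr (h (constRep_mem_repartitionsOf_iff.mp h1))
    apply hm'
    rw [← hab]
    exact Submodule.add_mem _ ha h2
  · unfold NN
    rw [repartitionsOf_add_single hm hm', sup_assoc, sup_assoc]
    congr 1
    exact sup_comm _ _

/-- `h¹(D)` -/
noncomputable def h1 (D : Divisor K F) : ℕ := finrank K (H1 D)

theorem ell_add_single_of_ne {D : Divisor K F} {v : Place K F}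
    (h : ¬ riemannRochSpace (D + Finsupp.single v 1) ≤ riemannRochSpace D) :
    ell (D + Finsupp.single v 1) = ell D + 1 := by
  apply le_antisymm (ell_add_single_le D v)
  have h1 : riemannRochSpace D < riemannRochSpace (D + Finsupp.single v 1) :=
    lt_of_le_not_ge (riemannRochSpace_mono (single_one_le v le_rfl)) h
  exact Submodule.finrank_lt_finrank_of_lt h1

theorem ell_add_single_of_le {D : Divisor K F} {v : Place K F}
    (h : riemannRochSpace (D + Finsupp.single v 1) ≤ riemannRochSpace D) :
    ell (D + Finsupp.single v 1) = ell D := by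
  apply le_antisymm (Submodule.finrank_mono h)
  exact ell_mono (single_one_le v le_rfl)

theorem finrank_quot_congr {V : Type*} [AddCommGroup V] [Module K V] {N N' : Submodule K V}
    (h : N = N') : finrank K (V ⧸ N) = finrank K (V ⧸ N') := by
  subst h; rfl

theorem finite_quot_congr {V : Type*} [AddCommGroup V] [Module K V] {N N' : Submodule K V}
    (h : N = N') (hf : Module.Finite K (V ⧸ N)) : Module.Finite K (V ⧸ N') := by
  subst h; exact hf

theorem h1_step (D : Divisor K F) (v : Place K F)
    (hfin : Module.Finite K (H1 (D + Finsupp.single v 1))) :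
    Module.Finite K (H1 D) ∧ (h1 D : ℤ) + defect D =
      h1 (D + Finsupp.single v 1) + defect (D + Finsupp.single v 1) := by
  by_cases h : riemannRochSpace (D + Finsupp.single v 1) ≤ riemannRochSpace D
  · obtain ⟨m, hm, hm'⟩ := exists_NN_add_single_of_le h
    have hfin' : Module.Finite K (repartitions K F ⧸ (NN D ⊔ K ∙ m)) :=
      finite_quot_congr hm' hfin
    obtain ⟨h2, h3⟩ := finrank_quotient_of_sup_span (NN D) hm
    refine ⟨h2, ?_⟩
    have h4 : h1 D = h1 (D + Finsupp.single v 1) + 1 := by
      have h5 : h1 (D + Finsupp.single v 1) = finrank K (repartitions K F ⧸ (NN D ⊔ K ∙ m)) :=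
        finrank_quot_congr hm'
      rw [h5]
      exact h3
    unfold defect
    rw [ell_add_single_of_le h, h4, map_add, degree_single']
    push_cast
    ring
  · have h2 := NN_add_single_of_ne h
    have h3 : h1 D = h1 (D + Finsupp.single v 1) := finrank_quot_congr h2.symm
    refine ⟨?_, ?_⟩
    · exact finite_quot_congr h2 hfin
    · unfold defect
      rw [ell_add_single_of_ne h, h3, map_add, degree_single']
      push_cast
      ring

theorem h1_chain {D E : Divisor K F} (h : D ≤ E) :
    Module.Finite K (H1 E) → Module.Finite K (H1 D) ∧ (h1 D : ℤ) + defect D = h1 E + defect E := by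
  refine divisor_le_induction (P := fun E => Module.Finite K (H1 E) → Module.Finite K (H1 D) ∧
    (h1 D : ℤ) + defect D = h1 E + defect E) ?_ ?_ h
  · intro h; exact ⟨h, rfl⟩
  · intro E v _ hE hfin
    obtain ⟨h2, h3⟩ := h1_step E v hfin
    obtain ⟨h4, h5⟩ := hE h2
    exact ⟨h4, h5.trans h3⟩

theorem NN_eq_top_of_maxDefect {D₀ : Divisor K F} (h : ∀ D : Divisor K F, defect D ≤ defect D₀) :
    NN D₀ = ⊤ := by
  rw [eq_top_iff]
  intro α _
  obtain ⟨E, hE, hα⟩ := exists_mem_repartitionsOf D₀ α
  have key : NN E = NN D₀ := by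
    refine divisor_le_induction (P := fun E => NN E = NN D₀) rfl ?_ hE
    intro E v hE hN
    rw [← hN]
    apply NN_add_single_of_ne
    intro hle
    have h1 := ell_add_single_of_le hle
    have h2 := defect_mono hE
    have h3 := h (E + Finsupp.single v 1)
    unfold defect at h2 h3
    rw [h1, map_add, degree_single'] at h3
    omega
  rw [← key]
  exact Submodule.mem_sup_left hα

theorem h1_eq_zero_of_NN_eq_top {D : Divisor K F} (h : NN D = ⊤) :
    Module.Finite K (H1 D) ∧ h1 D = 0 := by
  haveI : Subsingleton (H1 D) := Submodule.Quotient.subsingleton_iff.mpr h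
  exact ⟨inferInstance, finrank_zero_of_subsingleton⟩

theorem h1_add_defect_of_maxDefect {D₀ : Divisor K F}
    (h : ∀ D : Divisor K F, defect D ≤ defect D₀) (D : Divisor K F) :
    Module.Finite K (H1 D) ∧ (h1 D : ℤ) + defect D = defect D₀ := by
  have h2 : NN (D ⊔ D₀) = ⊤ := by
    rw [eq_top_iff, ← NN_eq_top_of_maxDefect h]
    exact NN_mono le_sup_right
  obtain ⟨h3, h4⟩ := h1_eq_zero_of_NN_eq_top h2
  obtain ⟨h5, h6⟩ := h1_chain (le_sup_left : D ≤ D ⊔ D₀) h3
  refine ⟨h5, ?_⟩
  rw [h6, h4]
  have h7 := h (D ⊔ D₀)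
  have h8 := defect_mono (le_sup_right : D₀ ≤ D ⊔ D₀)
  push_cast
  omega

instance finite_H1 (D : Divisor K F) : Module.Finite K (H1 D) := by
  obtain ⟨D₀, h⟩ := exists_maxDefect K F
  exact (h1_add_defect_of_maxDefect h D).1

theorem h1_zero : h1 (0 : Divisor K F) = genusFF K F := rfl

/-- **Riemann-Roch, first form**. -/
theorem riemann_roch_h1 (D : Divisor K F) :
    (ell D : ℤ) - h1 D = Divisor.degree D + 1 - genusFF K F := by
  obtain ⟨D₀, h⟩ := exists_maxDefect K F
  have h2 := (h1_add_defect_of_maxDefect h D).2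
  have h3 := (h1_add_defect_of_maxDefect h (0 : Divisor K F)).2
  rw [h1_zero] at h3
  unfold defect at h2 h3
  rw [ell_zero, map_zero] at h3
  push_cast at h3
  omega

theorem riemann_ineq (D : Divisor K F) : Divisor.degree D + 1 - genusFF K F ≤ ell D := by
  have := riemann_roch_h1 D
  omega

theorem h1_anti {D E : Divisor K F} (h : D ≤ E) : h1 E ≤ h1 D := by
  have h2 := riemann_roch_h1 D
  have h3 := riemann_roch_h1 E
  have h4 := defect_mono h
  unfold defect at h4
  omega

theorem h1_add_divOf (D : Divisor K F) {f : F} (hf : f ≠ 0) : h1 (D + divOf f) = h1 D := by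
  have h2 := riemann_roch_h1 D
  have h3 := riemann_roch_h1 (D + divOf f)
  rw [map_add, degree_divOf, ell_add_divOf D hf] at h3
  omega

variable (K F) in
/-- `H¹(D) = 0` for `deg D` large. -/
theorem exists_h1_eq_zero : ∃ c : ℤ, ∀ D : Divisor K F, c ≤ Divisor.degree D → h1 D = 0 := by
  obtain ⟨D₀, h⟩ := exists_maxDefect K F
  have hD₀ : h1 D₀ = 0 := (h1_eq_zero_of_NN_eq_top (NN_eq_top_of_maxDefect h)).2
  refine ⟨Divisor.degree D₀ + genusFF K F, fun D hD => ?_⟩
  have h2 : 0 < ell (D - D₀) := by
    have := riemann_ineq (D - D₀)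
    rw [map_sub] at this
    omega
  obtain ⟨f, hf, hf0⟩ := exists_mem_ne_zero_of_ell_pos h2
  rw [mem_riemannRochSpace_iff_divOf hf0] at hf
  have h3 : D₀ ≤ D + divOf f := by
    intro v
    have := hf v
    simp only [Finsupp.coe_zero, Pi.zero_apply, Finsupp.add_apply, Finsupp.sub_apply,
      divOf_apply] at this ⊢
    omega
  have h4 := h1_anti h3
  rw [h1_add_divOf D hf0, hD₀] at h4
  omega

theorem NN_eq_top_of_h1_eq_zero {D : Divisor K F} (h : h1 D = 0) : NN D = ⊤ := by
  haveI : Module.Finite K (repartitions K F ⧸ NN D) := finite_H1 D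
  have h2 : Subsingleton (repartitions K F ⧸ NN D) := finrank_zero_iff.mp h
  exact Submodule.Quotient.subsingleton_iff.mp h2

end Fermat.Agent.RR
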