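import Mathlib
import Fermat.Agent.RR.HOne

/-!
# Weil differentials and the duality theorem (Riemann-Roch)
-/

set_option autoImplicit false
set_option linter.unusedSectionVars false
set_option linter.style.haveILetI false

open WithZero AlgebraicCurve Fermat.Agent.FF IntermediateField IsDedekindDomain Module

namespace Fermat.Agent.RR

variable {K F : Type*} [Field K] [Field F] [Algebra K F] [IsAlgClosed K] [IsFnField K F]

variable (K F) in
theorem exists_place : Nonempty (Place K F) := by
  obtain ⟨x, hx⟩ := exists_transcendental (K := K) (F := F)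
  obtain ⟨v, -⟩ := exists_ord_neg_of_transcendental hx
  exact ⟨v⟩

variable (K F) in
theorem exists_degree_eq (n : ℤ) : ∃ D : Divisor K F, Divisor.degree D = n := by
  obtain ⟨v⟩ := exists_place K F
  exact ⟨Finsupp.single v n, degree_single' v n⟩

/-- Weil differentials vanishing on `A(D) + F`. -/
noncomputable def WD (D : Divisor K F) : Submodule K (Dual K (repartitions K F)) :=
  (NN D).dualAnnihilator

theorem mem_WD_iff {D : Divisor K F} {ω : Dual K (repartitions K F)} :
    ω ∈ WD D ↔ (∀ α ∈ repartitionsOf D, ω α = 0) ∧ ∀ f : F, ω (constRep f) = 0 := by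
  unfold WD
  rw [Submodule.mem_dualAnnihilator]
  constructor
  · intro h
    exact ⟨fun α hα => h α (Submodule.mem_sup_left hα),
      fun f => h _ (Submodule.mem_sup_right (constRep_mem_principal f))⟩
  · rintro ⟨h1, h2⟩ w hw
    rw [Submodule.mem_sup] at hw
    obtain ⟨a, ha, b, hb, rfl⟩ := hw
    obtain ⟨f, rfl⟩ := mem_principal_iff.mp hb
    rw [map_add, h1 a ha, h2 f, add_zero]

theorem WD_anti {D E : Divisor K F} (h : D ≤ E) : WD E ≤ WD D :=
  Submodule.dualAnnihilator_anti (NN_mono h)

noncomputable def WDEquiv (D : Divisor K F) : Dual K (H1 D) ≃ₗ[K] WD D :=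
  (NN D).dualQuotEquivDualAnnihilator

instance finite_WD (D : Divisor K F) : Module.Finite K (WD D) :=
  Module.Finite.equiv (WDEquiv D)

theorem finrank_WD (D : Divisor K F) : finrank K (WD D) = h1 D := by
  rw [← (WDEquiv D).finrank_eq, Subspace.dual_finrank_eq]
  rfl

/-- multiplication of repartitions by functions -/
noncomputable def mulRep (f : F) : repartitions K F →ₗ[K] repartitions K F :=
  (LinearMap.lsmul F (repartitions K F) f).restrictScalars K

theorem mulRep_apply (f : F) (α : repartitions K F) : mulRep f α = f • α := rfl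

theorem mulRep_coe (f : F) (α : repartitions K F) (v : Place K F) :
    ((mulRep f α : repartitions K F) : Place K F → F) v = f * (α : Place K F → F) v := rfl

/-- the action of functions on differentials -/
noncomputable def smulW (f : F) : Dual K (repartitions K F) →ₗ[K] Dual K (repartitions K F) :=
  (mulRep f).dualMap

theorem smulW_apply (f : F) (ω : Dual K (repartitions K F)) (α : repartitions K F) :
    smulW f ω α = ω (mulRep f α) := rfl

theorem mulRep_mul (f g : F) (α : repartitions K F) : mulRep (f * g) α = mulRep f (mulRep g α) := by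
  simp only [mulRep_apply, mul_smul]

theorem mulRep_one (α : repartitions K F) : mulRep (1 : F) α = α := by
  simp only [mulRep_apply, one_smul]

theorem smulW_smulW (f g : F) (ω : Dual K (repartitions K F)) :
    smulW f (smulW g ω) = smulW (g * f) ω := by
  ext α
  rw [smulW_apply, smulW_apply, smulW_apply, mulRep_mul]

theorem smulW_one (ω : Dual K (repartitions K F)) : smulW (1 : F) ω = ω := by
  ext α
  rw [smulW_apply, mulRep_one]

theorem smulW_add (f g : F) (ω : Dual K (repartitions K F)) :
    smulW (f + g) ω = smulW f ω + smulW g ω := by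
  ext α
  rw [smulW_apply, LinearMap.add_apply, smulW_apply, smulW_apply, ← map_add]
  congr 1
  simp only [mulRep_apply, add_smul]

theorem smulW_smul (c : K) (f : F) (ω : Dual K (repartitions K F)) :
    smulW (c • f) ω = c • smulW f ω := by
  ext α
  rw [smulW_apply, LinearMap.smul_apply, smulW_apply, ← map_smul]
  congr 1
  simp only [mulRep_apply, smul_assoc]

theorem smulW_zero (ω : Dual K (repartitions K F)) : smulW (0 : F) ω = 0 := by
  ext α
  rw [smulW_apply, mulRep_apply, zero_smul, map_zero, LinearMap.zero_apply]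

theorem smulW_ne_zero {f : F} (hf : f ≠ 0) {ω : Dual K (repartitions K F)} (hω : ω ≠ 0) :
    smulW f ω ≠ 0 := by
  intro h
  apply hω
  have := smulW_smulW f⁻¹ f ω
  rw [h, map_zero, mul_inv_cancel₀ hf, smulW_one] at this
  exact this.symm

theorem smulW_mem_WD {D E : Divisor K F} {ω : Dual K (repartitions K F)} (hω : ω ∈ WD D)
    {f : F} (hf : f ∈ riemannRochSpace (D - E)) : smulW f ω ∈ WD E := by
  rw [mem_WD_iff] at hω ⊢
  refine ⟨fun α hα => ?_, fun g => ?_⟩
  · rw [smulW_apply]
    apply hω.1
    intro v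
    rw [mulRep_coe, map_mul]
    calc v.adicValuation f * v.adicValuation ((α : Place K F → F) v)
        ≤ exp ((D - E) v) * exp (E v) := mul_le_mul' (hf v) (hα v)
      _ = exp (D v) := by rw [← exp_add, Finsupp.sub_apply, sub_add_cancel]
  · rw [smulW_apply]
    have : mulRep f (constRep g) = (constRep (f * g) : repartitions K F) := by
      apply Subtype.ext
      rfl
    rw [this]
    exact hω.2 _

/-- `L(D) → Ω`, `x ↦ x ω`. -/
noncomputable def phiW (D : Divisor K F) (ω : Dual K (repartitions K F)) :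
    riemannRochSpace D →ₗ[K] Dual K (repartitions K F) where
  toFun f := smulW (f : F) ω
  map_add' a b := smulW_add (a : F) (b : F) ω
  map_smul' c a := smulW_smul c (a : F) ω

theorem phiW_apply (D : Divisor K F) (ω : Dual K (repartitions K F)) (f : riemannRochSpace D) :
    phiW D ω f = smulW (f : F) ω := rfl

theorem phiW_injective (D : Divisor K F) {ω : Dual K (repartitions K F)} (hω0 : ω ≠ 0) :
    Function.Injective (phiW D ω) := by
  rw [injective_iff_map_eq_zero]
  intro f hf
  by_contra hf0
  have h2 : (f : F) ≠ 0 := fun h => hf0 (Subtype.ext h)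
  exact smulW_ne_zero h2 hω0 hf

/-- The space of Weil differentials is one dimensional over `F`. -/
theorem exists_smulW_eq {D₁ D₂ : Divisor K F} {ω₁ ω₂ : Dual K (repartitions K F)}
    (h1' : ω₁ ∈ WD D₁) (h2' : ω₂ ∈ WD D₂) (h10 : ω₁ ≠ 0) (h20 : ω₂ ≠ 0) :
    ∃ f : F, f ≠ 0 ∧ ω₂ = smulW f ω₁ := by
  obtain ⟨E, hE⟩ := exists_degree_eq K F
    (-(max 0 (3 * (genusFF K F : ℤ) - 3 - Divisor.degree D₁ - Divisor.degree D₂) + 1))
  have hE0 : Divisor.degree E < 0 := by
    rw [hE]
    have := le_max_left 0 (3 * (genusFF K F : ℤ) - 3 - Divisor.degree D₁ - Divisor.degree D₂)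
    omega
  have hE1 : Divisor.degree E < -(3 * (genusFF K F : ℤ) - 3 - Divisor.degree D₁ - Divisor.degree D₂) := by
    rw [hE]
    have := le_max_right 0 (3 * (genusFF K F : ℤ) - 3 - Divisor.degree D₁ - Divisor.degree D₂)
    omega
  have hh := riemann_roch_h1 E
  rw [ell_eq_zero_of_degree_neg hE0] at hh
  have e1 := riemann_ineq (D₁ - E)
  have e2 := riemann_ineq (D₂ - E)
  rw [map_sub] at e1 e2
  let φ : (riemannRochSpace (D₁ - E) × riemannRochSpace (D₂ - E)) →ₗ[K]
      Dual K (repartitions K F) := (phiW (D₁ - E) ω₁).coprod (phiW (D₂ - E) (-ω₂))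
  have hrange : LinearMap.range φ ≤ WD E := by
    rintro _ ⟨⟨x, y⟩, rfl⟩
    rw [LinearMap.coprod_apply]
    refine (WD E).add_mem (smulW_mem_WD h1' x.2) (smulW_mem_WD ?_ y.2)
    exact (WD D₂).neg_mem h2'
  have hlt : finrank K (WD E) <
      finrank K (riemannRochSpace (D₁ - E) × riemannRochSpace (D₂ - E)) := by
    rw [finrank_WD, finrank_prod]
    change h1 E < ell (D₁ - E) + ell (D₂ - E)
    push_cast at hh
    omega
  have hker : LinearMap.ker φ ≠ ⊥ := by
    intro h
    have h3 := LinearMap.finrank_range_of_inj (LinearMap.ker_eq_bot.mp h)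
    have h4 := Submodule.finrank_mono hrange
    omega
  obtain ⟨⟨x, y⟩, hxy, hne⟩ := Submodule.exists_mem_ne_zero_of_ne_bot hker
  have hxy' : smulW (x : F) ω₁ = smulW (y : F) ω₂ := by
    have h3 : φ (x, y) = 0 := hxy
    rw [LinearMap.coprod_apply, phiW_apply, phiW_apply, map_neg] at h3
    exact add_neg_eq_zero.mp h3
  have hy0 : (y : F) ≠ 0 := by
    intro hy
    rw [hy, smulW_zero] at hxy'
    have hx : (x : F) = 0 := by
      by_contra hx
      exact smulW_ne_zero hx h10 hxy'
    apply hne
    exact Prod.ext (Subtype.ext hx) (Subtype.ext hy)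
  have hx0 : (x : F) ≠ 0 := by
    intro hx
    rw [hx, smulW_zero] at hxy'
    exact smulW_ne_zero hy0 h20 hxy'.symm
  refine ⟨x * (y : F)⁻¹, mul_ne_zero hx0 (inv_ne_zero hy0), ?_⟩
  rw [← smulW_smulW, hxy', smulW_smulW, mul_inv_cancel₀ hy0, smulW_one]

variable (K F) in
theorem exists_WD_ne_zero : ∃ (D : Divisor K F) (ω : Dual K (repartitions K F)), ω ∈ WD D ∧ ω ≠ 0 := by
  obtain ⟨D, hD⟩ := exists_degree_eq K F (-2)
  have h2 := riemann_roch_h1 D
  rw [ell_eq_zero_of_degree_neg (by omega)] at h2
  have h3 : 0 < h1 D := by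
    push_cast at h2
    omega
  have h4 : WD D ≠ ⊥ := by
    intro h
    rw [← finrank_WD, h, finrank_bot] at h3
    omega
  obtain ⟨ω, hω, hω0⟩ := Submodule.exists_mem_ne_zero_of_ne_bot h4
  exact ⟨D, ω, hω, hω0⟩

theorem WD_sup {D E : Divisor K F} {ω : Dual K (repartitions K F)} (h1' : ω ∈ WD D)
    (h2' : ω ∈ WD E) : ω ∈ WD (D ⊔ E) := by
  classical
  rw [mem_WD_iff] at h1' h2' ⊢
  refine ⟨fun α hα => ?_, h1'.2⟩
  -- split `α`
  have hfin := finite_of_mem_repartitions α.2
  let β : repartitions K F := ⟨fun v => if D v ≤ E v then (α : Place K F → F) v else 0,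
    mem_repartitions_of_finite (hfin.subset (by
      intro v hv hv'
      apply hv
      change v.adicValuation (if D v ≤ E v then (α : Place K F → F) v else 0) ≤ 1
      split_ifs
      · exact hv'
      · simp))⟩
  have hβ : β ∈ repartitionsOf E := by
    intro v
    change v.adicValuation (if D v ≤ E v then (α : Place K F → F) v else 0) ≤ _
    split_ifs with h
    · have := hα v
      rwa [Finsupp.sup_apply, sup_eq_right.mpr h] at this
    · simp
  have hγ : α - β ∈ repartitionsOf D := by
    intro v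
    change v.adicValuation ((α : Place K F → F) v -
      (if D v ≤ E v then (α : Place K F → F) v else 0)) ≤ _
    split_ifs with h
    · simp
    · rw [sub_zero]
      have := hα v
      rwa [Finsupp.sup_apply, sup_eq_left.mpr (not_le.mp h).le] at this
  have h3 : α = (α - β) + β := by abel
  rw [h3, map_add, h1'.1 _ hγ, h2'.1 _ hβ, add_zero]

theorem eq_of_le_of_degree_le {D E : Divisor K F} (h : D ≤ E)
    (hd : Divisor.degree E ≤ Divisor.degree D) : D = E := by
  by_contra hne
  obtain ⟨v, hv⟩ : ∃ v, D v ≠ E v := by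
    by_contra hcon
    push Not at hcon
    exact hne (Finsupp.ext hcon)
  have h1 : D + Finsupp.single v 1 ≤ E := by
    classical
    intro w
    have := h w
    rw [Finsupp.add_apply, Finsupp.single_apply]
    split_ifs with h2
    · subst h2
      omega
    · omega
  have h2 := degree_mono h1
  rw [map_add, degree_single'] at h2
  omega

/-- the divisor of a nonzero Weil differential -/
theorem exists_divisor_WD {D : Divisor K F} {ω : Dual K (repartitions K F)} (hω : ω ∈ WD D)
    (hω0 : ω ≠ 0) : ∃ W : Divisor K F, ∀ E : Divisor K F, ω ∈ WD E ↔ E ≤ W := by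
  obtain ⟨c, hc⟩ := exists_h1_eq_zero K F
  have hbd : ∀ E : Divisor K F, ω ∈ WD E → Divisor.degree E < c := by
    intro E hE
    by_contra hcon
    push Not at hcon
    have h2 := NN_eq_top_of_h1_eq_zero (hc E hcon)
    apply hω0
    unfold WD at hE
    rw [h2, Submodule.dualAnnihilator_top] at hE
    exact (Submodule.mem_bot K).mp hE
  obtain ⟨m, ⟨W, hW, hWm⟩, hm⟩ := Int.exists_greatest_of_bdd
    (P := fun z => ∃ E : Divisor K F, ω ∈ WD E ∧ Divisor.degree E = z)
    ⟨c, fun z hz => by obtain ⟨E, hE, rfl⟩ := hz; exact (hbd E hE).le⟩ ⟨_, D, hω, rfl⟩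
  refine ⟨W, fun E => ⟨fun hE => ?_, fun hE => WD_anti hE hW⟩⟩
  have h2 := WD_sup hW hE
  have h3 := hm _ ⟨_, h2, rfl⟩
  have h4 := eq_of_le_of_degree_le (le_sup_left : W ≤ W ⊔ E) (by rw [hWm]; exact h3)
  rw [h4]
  exact le_sup_right

/-- **Duality**, for the divisor of a Weil differential. -/
theorem h1_eq_of_divisor {W D₀ : Divisor K F} {ω : Dual K (repartitions K F)} (hω : ω ∈ WD D₀)
    (hω0 : ω ≠ 0) (hW : ∀ E : Divisor K F, ω ∈ WD E ↔ E ≤ W) (D : Divisor K F) :
    h1 D = ell (W - D) := by
  have hωW : ω ∈ WD W := (hW W).mpr le_rfl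
  have hinj := phiW_injective (W - D) hω0
  have hrange : LinearMap.range (phiW (W - D) ω) = WD D := by
    apply le_antisymm
    · rintro _ ⟨x, rfl⟩
      exact smulW_mem_WD hωW x.2
    · intro ω' hω'
      by_cases hω'0 : ω' = 0
      · rw [hω'0]
        exact Submodule.zero_mem _
      · obtain ⟨f, hf0, rfl⟩ := exists_smulW_eq hω hω' hω0 hω'0
        have h2 : smulW f⁻¹ (smulW f ω) ∈ WD (D - divOf f) := by
          apply smulW_mem_WD hω'
          rw [mem_riemannRochSpace_iff_divOf (inv_ne_zero hf0), divOf_inv]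
          simp
        rw [smulW_smulW, mul_inv_cancel₀ hf0, smulW_one, hW] at h2
        refine ⟨⟨f, ?_⟩, rfl⟩
        rw [mem_riemannRochSpace_iff_divOf hf0]
        intro v
        have := h2 v
        simp only [Finsupp.coe_zero, Pi.zero_apply, Finsupp.add_apply, Finsupp.sub_apply,
          divOf_apply] at this ⊢
        omega
  rw [← finrank_WD, ← hrange, LinearMap.finrank_range_of_inj hinj]
  rfl

/-- A divisor `W` is canonical if `h¹(D) = ℓ(W - D)` for all `D`. -/
def IsCanonical (W : Divisor K F) : Prop := ∀ D : Divisor K F, h1 D = ell (W - D)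

variable (K F) in
theorem exists_isCanonical : ∃ W : Divisor K F, IsCanonical W := by
  obtain ⟨D, ω, hω, hω0⟩ := exists_WD_ne_zero K F
  obtain ⟨W, hW⟩ := exists_divisor_WD hω hω0
  exact ⟨W, fun D => h1_eq_of_divisor hω hω0 hW D⟩

theorem IsCanonical.ell_eq {W : Divisor K F} (h : IsCanonical W) : ell W = genusFF K F := by
  have := h 0
  rw [sub_zero, h1_zero] at this
  exact this.symm

theorem IsCanonical.degree_eq {W : Divisor K F} (h : IsCanonical W) :
    Divisor.degree W = 2 * genusFF K F - 2 := by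
  have h2 := riemann_roch_h1 W
  rw [h W, sub_self, ell_zero, h.ell_eq] at h2
  push_cast at h2
  omega

/-- **Riemann-Roch**. -/
theorem IsCanonical.riemann_roch {W : Divisor K F} (h : IsCanonical W) (D : Divisor K F) :
    (ell D : ℤ) - ell (W - D) = Divisor.degree D + 1 - genusFF K F := by
  rw [← h D]
  exact riemann_roch_h1 D

theorem h1_eq_zero_of_lt_degree {D : Divisor K F} (h : 2 * (genusFF K F : ℤ) - 2 < Divisor.degree D) :
    h1 D = 0 := by
  obtain ⟨W, hW⟩ := exists_isCanonical K F
  rw [hW D]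
  apply ell_eq_zero_of_degree_neg
  rw [map_sub, hW.degree_eq]
  omega

theorem ell_eq_of_lt_degree {D : Divisor K F} (h : 2 * (genusFF K F : ℤ) - 2 < Divisor.degree D) :
    (ell D : ℤ) = Divisor.degree D + 1 - genusFF K F := by
  have h2 := riemann_roch_h1 D
  rw [h1_eq_zero_of_lt_degree h] at h2
  push_cast at h2
  omega

variable (K F) in
theorem exists_canonical : ∃ W : Divisor K F, Divisor.degree W = 2 * genusFF K F - 2 ∧
    ∀ D : Divisor K F, h1 D = ell (W - D) := by
  obtain ⟨W, hW⟩ := exists_isCanonical K F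
  exact ⟨W, hW.degree_eq, hW⟩

/-- a divisor of degree `2g - 2` with `ℓ ≥ g` is canonical. -/
theorem isCanonical_of_degree_of_ell {W : Divisor K F}
    (hd : Divisor.degree W = 2 * (genusFF K F : ℤ) - 2) (hl : genusFF K F ≤ ell W) :
    IsCanonical W := by
  obtain ⟨W₀, hW₀⟩ := exists_isCanonical K F
  have h2 := hW₀.riemann_roch W
  have h3 : 0 < ell (W₀ - W) := by omega
  obtain ⟨f, hf, hf0⟩ := exists_mem_ne_zero_of_ell_pos h3
  rw [mem_riemannRochSpace_iff_divOf hf0] at hf
  have h4 : (0 : Divisor K F) = W₀ - W + divOf f := by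
    apply eq_of_le_of_degree_le hf
    rw [map_add, degree_divOf, map_sub, hW₀.degree_eq, hd, map_zero]
    omega
  have h5 : W = W₀ + divOf f := by
    have := congrArg (fun D => D + W) h4
    simp only [zero_add] at this
    rw [this]
    abel
  intro D
  rw [h5, hW₀ D, ← ell_add_divOf (W₀ - D) hf0]
  congr 1
  abel

end Fermat.Agent.RR
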