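import Fermat.Agent.RR.Approx
import Mathlib.FieldTheory.SeparablyGenerated
import Mathlib.FieldTheory.IsAlgClosed.Basic
import Mathlib.FieldTheory.Minpoly.IsIntegrallyClosed

/-!
# Places of a function field over an algebraically closed field of any characteristic

Residue fields are `K`; functions without poles are constant.
-/

set_option autoImplicit false
set_option linter.unusedSectionVars false
set_option linter.style.haveILetI false

open WithZero AlgebraicCurve Fermat.Agent.FF IntermediateField IsDedekindDomain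
open scoped IntermediateField.algebraAdjoinAdjoin

namespace Fermat.Agent.RR

variable {K F : Type*} [Field K] [Field F] [Algebra K F]

theorem adjoin_simple_inv' (f : F) : K⟮f⁻¹⟯ = K⟮f⟯ := by
  apply le_antisymm
  · rw [IntermediateField.adjoin_simple_le_iff]
    exact inv_mem (IntermediateField.mem_adjoin_simple_self K f)
  · rw [IntermediateField.adjoin_simple_le_iff]
    have := inv_mem (IntermediateField.mem_adjoin_simple_self K f⁻¹)
    rwa [inv_inv] at this

theorem transcendental_inv' {f : F} (hf : Transcendental K f) : Transcendental K f⁻¹ := by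
  intro h
  apply hf
  have := h.inv
  rwa [inv_inv] at this

/-- an element integral over `K[x]` and over `K[1/x]` is algebraic over `K`. -/
theorem isIntegral_of_isIntegral_adjoin {x : F} (hx : Transcendental K x) {f : F}
    (h1 : IsIntegral (Algebra.adjoin K {x}) f) (h2 : IsIntegral (Algebra.adjoin K {x⁻¹}) f) :
    IsIntegral K f := by
  -- view `K(1/x)` inside `K(x)`
  have hx0 : x ≠ 0 := transcendental_ne_zero hx
  have e1 : minpoly K⟮x⟯ f = (minpoly (Algebra.adjoin K {x}) f).map (algebraMap _ K⟮x⟯) :=
    minpoly.isIntegrallyClosed_eq_field_fractions' K⟮x⟯ h1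
  have e2 : minpoly K⟮x⁻¹⟯ f = (minpoly (Algebra.adjoin K {x⁻¹}) f).map (algebraMap _ K⟮x⁻¹⟯) :=
    minpoly.isIntegrallyClosed_eq_field_fractions' K⟮x⁻¹⟯ h2
  have e3 : (minpoly K⟮x⁻¹⟯ f).map (algebraMap _ F) = (minpoly K⟮x⟯ f).map (algebraMap _ F) := by
    rw [adjoin_simple_inv' (K := K) x]
  have hlift : (minpoly K⟮x⟯ f).map (algebraMap _ F) ∈ Polynomial.lifts (algebraMap K F) := by
    rw [Polynomial.lifts_iff_coeff_lifts]
    intro n
    have c1 : ∃ p : Polynomial K, ((minpoly K⟮x⟯ f).map (algebraMap _ F)).coeff n =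
        Polynomial.aeval x p := by
      obtain ⟨p, hp⟩ := exists_poly x ((minpoly (Algebra.adjoin K {x}) f).coeff n)
      refine ⟨p, ?_⟩
      rw [← hp, e1, Polynomial.coeff_map, Polynomial.coeff_map]
      rfl
    have c2 : ∃ q : Polynomial K, ((minpoly K⟮x⟯ f).map (algebraMap _ F)).coeff n =
        Polynomial.aeval x⁻¹ q := by
      obtain ⟨q, hq⟩ := exists_poly x⁻¹ ((minpoly (Algebra.adjoin K {x⁻¹}) f).coeff n)
      refine ⟨q, ?_⟩
      rw [← hq, ← e3, e2, Polynomial.coeff_map, Polynomial.coeff_map]
      rfl
    obtain ⟨p, hp⟩ := c1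
    obtain ⟨q, hq⟩ := c2
    set N := q.natDegree with hN
    have h3 : Polynomial.aeval x (Polynomial.reflect N q) = Polynomial.aeval x⁻¹ q * x ^ N := by
      letI : Invertible x⁻¹ := invertibleOfNonzero (inv_ne_zero hx0)
      have h4 := Polynomial.eval₂_reflect_mul_pow (algebraMap K F) x⁻¹ N q le_rfl
      have h5 : ⅟(x⁻¹) = x := by
        rw [invOf_eq_inv, inv_inv]
      rw [h5] at h4
      change _ = Polynomial.aeval x⁻¹ q at h4
      rw [← h4, mul_assoc, ← mul_pow, inv_mul_cancel₀ hx0, one_pow, mul_one]
      rfl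
    have h4 : Polynomial.aeval x (Polynomial.reflect N q - p * Polynomial.X ^ N) = 0 := by
      rw [map_sub, h3, ← hq, hp, map_mul, map_pow, Polynomial.aeval_X, sub_self]
    have h5 : Polynomial.reflect N q = p * Polynomial.X ^ N := by
      by_contra h6
      exact hx ⟨_, sub_ne_zero.mpr h6, h4⟩
    have h6 : p.natDegree = 0 := by
      rcases eq_or_ne p 0 with rfl | hp0
      · simp
      have h7 := congrArg Polynomial.natDegree h5
      rw [Polynomial.natDegree_mul_X_pow N hp0] at h7
      have h8 : (Polynomial.reflect N q).natDegree ≤ N := by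
        refine (Polynomial.natDegree_reflect_le).trans ?_
        simp [hN]
      omega
    rw [Polynomial.eq_C_of_natDegree_eq_zero h6, Polynomial.aeval_C] at hp
    exact ⟨_, hp.symm⟩
  have hf : IsIntegral K⟮x⟯ f := h1.tower_top
  have hmonic : ((minpoly K⟮x⟯ f).map (algebraMap _ F)).Monic := (minpoly.monic hf).map _
  obtain ⟨r, hr1, -, hr2⟩ := Polynomial.lifts_and_natDegree_eq_and_monic hlift hmonic
  refine ⟨r, hr2, ?_⟩
  rw [← Polynomial.eval_map, hr1, Polynomial.eval_map]
  exact minpoly.aeval K⟮x⟯ f

theorem isIntegral_adjoin_of_forall [IsFnField K F] {x : F} [Algebra.IsSeparable K⟮x⟯ F]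
    (hx : Transcendental K x) {f : F} (h : ∀ v : Place K F, 0 ≤ v.ord f) :
    IsIntegral (Algebra.adjoin K {x}) f := by
  haveI := IsFnField.finiteDimensional hx
  have h1 : f ∈ (algebraMap (integralClosure (Algebra.adjoin K {x}) F) F).range := by
    apply HeightOneSpectrum.mem_integers_of_valuation_le_one
    intro w
    rw [← adicValuation_ofHeightOneSpectrum (K := K)]
    exact Place.adicValuation_le_one_of_mem _ (mem_of_ord_nonneg _ (h _))
  obtain ⟨⟨b, hb⟩, rfl⟩ := h1
  exact hb

section AlgClosed

variable [IsAlgClosed K]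

/-- an algebraic element over an algebraically closed field is a constant -/
theorem mem_range_of_isAlgebraic {f : F} (hf : IsAlgebraic K f) : ∃ a : K, algebraMap K F a = f := by
  haveI : FiniteDimensional K K⟮f⟯ := IntermediateField.adjoin.finiteDimensional hf.isIntegral
  obtain ⟨a, ha⟩ := (IsAlgClosed.algebraMap_bijective_of_isIntegral (k := K) (K := K⟮f⟯)).2
    ⟨f, IntermediateField.mem_adjoin_simple_self K f⟩
  exact ⟨a, congrArg Subtype.val ha⟩

variable [IsFnField K F]

variable (K F) in
theorem exists_separating : ∃ x : F, Transcendental K x ∧ Algebra.IsSeparable K⟮x⟯ F := by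
  haveI := IsFnField.essFinite (K := K) (F := F)
  obtain ⟨s, hs, hsep⟩ := exists_isTranscendenceBasis_and_isSeparable_of_perfectField K F
  have hcard : s.card = 1 := by
    have h1 := hs.lift_cardinalMk_eq_trdeg
    rw [IsFnField.trdeg_eq_one] at h1
    simpa using h1
  obtain ⟨x, rfl⟩ := Finset.card_eq_one.mp hcard
  refine ⟨x, hs.1.transcendental ⟨x, by simp⟩, ?_⟩
  rwa [Finset.coe_singleton] at hsep

/-- A function without poles is constant. -/
theorem exists_algebraMap_eq_of_forall_ord_nonneg {f : F} (h : ∀ v : Place K F, 0 ≤ v.ord f) :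
    ∃ a : K, algebraMap K F a = f := by
  obtain ⟨x, hx, hsep⟩ := exists_separating K F
  have h1 := isIntegral_adjoin_of_forall hx h
  haveI : Algebra.IsSeparable K⟮x⁻¹⟯ F := by
    rw [adjoin_simple_inv' (K := K) x]
    exact hsep
  have h2 := isIntegral_adjoin_of_forall (transcendental_inv' hx) h
  exact mem_range_of_isAlgebraic (isIntegral_of_isIntegral_adjoin hx h1 h2).isAlgebraic

theorem exists_ord_neg_of_transcendental {f : F} (hf : Transcendental K f) :
    ∃ v : Place K F, v.ord f < 0 := by
  by_contra hcon
  push Not at hcon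
  obtain ⟨a, rfl⟩ := exists_algebraMap_eq_of_forall_ord_nonneg hcon
  exact hf (isAlgebraic_algebraMap a)

/-- Every element of the valuation ring is congruent to a constant. -/
theorem exists_sub_ord_pos (v : Place K F) {u : F} (hu : 0 ≤ v.ord u) :
    ∃ a : K, u - algebraMap K F a = 0 ∨ 0 < v.ord (u - algebraMap K F a) := by
  by_contra hcon
  push Not at hcon
  have hord : ∀ a : K, v.ord (u - algebraMap K F a) = 0 := by
    intro a
    apply le_antisymm (hcon a).2
    rw [← mem_iff_ord_nonneg] at hu ⊢
    exact sub_mem hu (v.algebraMap_mem' a)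
  have htr : Transcendental K u := by
    intro halg
    obtain ⟨a, ha⟩ := mem_range_of_isAlgebraic halg
    exact (hcon a).1 (by rw [ha, sub_self])
  -- `v` is trivial on `K[u]`
  have hpoly : ∀ q : Polynomial K, q ≠ 0 → v.ord (Polynomial.aeval u q) = 0 := by
    intro q hq
    have hs := IsAlgClosed.splits q
    rw [hs.eq_prod_roots]
    simp only [map_mul, Polynomial.aeval_C]
    have hl : q.leadingCoeff ≠ 0 := by simpa using hq
    have key : ∀ s : Multiset K,
        (Polynomial.aeval u (s.map fun a => Polynomial.X - Polynomial.C a).prod ≠ 0) ∧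
        v.ord (Polynomial.aeval u (s.map fun a => Polynomial.X - Polynomial.C a).prod) = 0 := by
      intro s
      induction s using Multiset.induction_on with
      | empty => simp
      | cons a s ih =>
        have h1 : Polynomial.aeval u (Polynomial.X - Polynomial.C a) ≠ 0 := by
          simpa using (hcon a).1
        rw [Multiset.map_cons, Multiset.prod_cons, map_mul]
        refine ⟨mul_ne_zero h1 ih.1, ?_⟩
        rw [v.ord_mul h1 ih.1, ih.2]
        simpa using hord a
    rw [v.ord_mul (by simpa using hl) (key _).1, (key _).2, ord_algebraMap, add_zero]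
  have hmem : ∀ y : K⟮u⟯, (y : F) ∈ v.toValuationSubring := by
    rintro ⟨y, hy⟩
    rw [IntermediateField.mem_adjoin_simple_iff] at hy
    obtain ⟨r, s, rfl⟩ := hy
    change Polynomial.aeval u r / Polynomial.aeval u s ∈ v.toValuationSubring
    rcases eq_or_ne r 0 with rfl | hr
    · simp
    rcases eq_or_ne s 0 with rfl | hs
    · simp
    rw [div_eq_mul_inv]
    apply mul_mem <;> apply mem_of_ord_nonneg
    · rw [hpoly r hr]
    · rw [v.ord_inv, hpoly s hs, neg_zero]
  apply v.ne_top'
  rw [eq_top_iff]
  intro f _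
  haveI := isAlgebraic_adjoin_of_transcendental (IsFnField.trdeg_eq_one (K := K) (F := F)) htr
  have hint : IsIntegral K⟮u⟯ f := (Algebra.IsAlgebraic.isAlgebraic f).isIntegral
  let φ : K⟮u⟯ →+* v.toValuationSubring :=
    (algebraMap K⟮u⟯ F).codRestrict v.toValuationSubring.toSubring hmem
  letI : Algebra K⟮u⟯ v.toValuationSubring := φ.toAlgebra
  haveI : IsScalarTower K⟮u⟯ v.toValuationSubring F := IsScalarTower.of_algebraMap_eq fun _ => rfl
  have hint' : IsIntegral v.toValuationSubring f := hint.tower_top
  obtain ⟨y, hy⟩ := IsIntegrallyClosed.isIntegral_iff.mp hint'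
  rw [← hy]
  exact y.2

theorem bijective_algebraMap_residueField (v : Place K F) :
    Function.Bijective (algebraMap K v.ResidueField) := by
  refine ⟨(algebraMap K v.ResidueField).injective, fun y => ?_⟩
  obtain ⟨⟨u, hu⟩, rfl⟩ := IsLocalRing.residue_surjective y
  obtain ⟨a, ha⟩ := exists_sub_ord_pos v (ord_nonneg_of_mem v hu)
  refine ⟨a, ?_⟩
  change IsLocalRing.residue _ (algebraMap K v.toValuationSubring a) = _
  rw [eq_comm, ← sub_eq_zero, ← map_sub, IsLocalRing.residue_eq_zero_iff,
    coe_mem_maximalIdeal_iff]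
  exact ha

theorem finite_residueField (v : Place K F) : Module.Finite K v.ResidueField :=
  Module.Finite.of_surjective (Algebra.linearMap K v.ResidueField)
    (bijective_algebraMap_residueField v).2

theorem deg_eq_one (v : Place K F) : v.deg = 1 :=
  haveI := finite_residueField v
  v.deg_eq_one_of_isAlgClosed_of_finite

/-- Leading coefficients: if `v f ≥ v m` then `v (f - c m) > v m` for some constant `c`. -/
theorem exists_sub_smul_lt (v : Place K F) {f m : F} (hm : m ≠ 0)
    (h : v.adicValuation f ≤ v.adicValuation m) :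
    ∃ c : K, v.adicValuation (f - c • m) < v.adicValuation m := by
  have hm' : v.adicValuation m ≠ 0 := v.adicValuation_ne_zero hm
  have h1 : v.adicValuation (f / m) ≤ 1 := by
    rw [map_div₀]
    exact div_le_one_of_le₀ h zero_le
  obtain ⟨c, hc⟩ : ∃ c : K, v.adicValuation (f / m - algebraMap K F c) < 1 := by
    rw [v.adicValuation_le_one_iff] at h1
    have h2 : 0 ≤ v.ord (f / m) := by
      rcases h1 with h1 | h1
      · rw [h1]; simp
      · exact h1
    obtain ⟨c, hc⟩ := exists_sub_ord_pos v h2
    refine ⟨c, ?_⟩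
    rcases hc with hc | hc
    · rw [hc]; simp
    · have h3 : f / m - algebraMap K F c ≠ 0 := by
        intro h4
        rw [h4] at hc
        simp at hc
      rw [v.adicValuation_eq_exp_neg_ord h3, ← exp_zero, exp_lt_exp]
      omega
  refine ⟨c, ?_⟩
  have h2 : f - c • m = (f / m - algebraMap K F c) * m := by
    rw [Algebra.smul_def]
    field_simp
  rw [h2, map_mul]
  calc v.adicValuation (f / m - algebraMap K F c) * v.adicValuation m
      < 1 * v.adicValuation m := by
        exact mul_lt_mul_of_pos_right hc (zero_lt_iff.mpr hm')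
    _ = _ := one_mul _

end AlgClosed

end Fermat.Agent.RR
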