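import Fermat.Agent.FF.FnField

/-!
# Weak approximation for places of a function field (any fields `K`, `F`)
-/

set_option autoImplicit false
set_option linter.unusedSectionVars false

open WithZero AlgebraicCurve Fermat.Agent.FF

namespace Fermat.Agent.RR

variable {K F : Type*} [Field K] [Field F] [Algebra K F]

theorem le_exp_of_ord {v : Place K F} {f : F} {n : ℤ} (h : -n ≤ v.ord f) :
    v.adicValuation f ≤ exp n := v.adicValuation_le_exp_iff.mpr (Or.inr h)

theorem exists_pos_neg {v w : Place K F} (h : v ≠ w) :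
    ∃ u : F, 0 < v.ord u ∧ w.ord u < 0 := by
  have h1 : ∃ y : F, y ∈ v.toValuationSubring ∧ y ∉ w.toValuationSubring := by
    by_contra hcon
    push Not at hcon
    exact h (eq_of_le hcon)
  have h2 : ∃ y : F, y ∈ w.toValuationSubring ∧ y ∉ v.toValuationSubring := by
    by_contra hcon
    push Not at hcon
    exact h (eq_of_le hcon).symm
  obtain ⟨y, hy1, hy2⟩ := h1
  obtain ⟨z, hz1, hz2⟩ := h2
  rw [mem_iff_ord_nonneg] at hy1 hy2 hz1 hz2
  have hy0 : y ≠ 0 := by rintro rfl; simp at hy2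
  have hz0 : z ≠ 0 := by rintro rfl; simp at hz2
  refine ⟨y * z⁻¹, ?_, ?_⟩
  · rw [v.ord_mul hy0 (inv_ne_zero hz0), v.ord_inv]
    linarith
  · rw [w.ord_mul hy0 (inv_ne_zero hz0), w.ord_inv]
    linarith

theorem exists_pos_forall_neg (v : Place K F) (S : Finset (Place K F)) (hv : v ∉ S) :
    ∃ u : F, u ≠ 0 ∧ 0 < v.ord u ∧ ∀ w ∈ S, w.ord u < 0 := by
  classical
  induction S using Finset.induction_on with
  | empty =>
    obtain ⟨t, ht0, ht⟩ := exists_ord_eq_one v
    exact ⟨t, ht0, by omega, by simp⟩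
  | insert w S hw ih =>
    rw [Finset.mem_insert, not_or] at hv
    obtain ⟨y, hy0, hy1, hy2⟩ := ih hv.2
    rcases lt_or_ge (w.ord y) 0 with h | h
    · refine ⟨y, hy0, hy1, fun w' hw' => ?_⟩
      rcases Finset.mem_insert.mp hw' with rfl | h'
      · exact h
      · exact hy2 _ h'
    obtain ⟨z, hz1, hz2⟩ := exists_pos_neg hv.1
    have hz0 : z ≠ 0 := by rintro rfl; simp at hz2
    set r : ℕ := 1 + ∑ w' ∈ S, (w'.ord y).natAbs with hr
    have hr1 : ∀ w' ∈ S, (w'.ord y).natAbs < r := fun w' hw' => by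
      have := Finset.single_le_sum (f := fun w' : Place K F => (w'.ord y).natAbs)
        (fun _ _ => Nat.zero_le _) hw'
      omega
    have hne : ∀ w' ∈ S, w'.ord y ≠ w'.ord (z ^ r) := by
      intro w' hw' heq
      rw [ord_pow] at heq
      have h1 := hr1 w' hw'
      have h2 := hy2 w' hw'
      rcases eq_or_ne (w'.ord z) 0 with h3 | h3
      · rw [h3, mul_zero] at heq
        omega
      · rw [heq, Int.natAbs_mul, Int.natAbs_natCast] at h1
        have h4 : 1 ≤ (w'.ord z).natAbs := Int.natAbs_pos.mpr h3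
        exact absurd h1 (not_lt.mpr (Nat.le_mul_of_pos_right r h4))
    have hzr0 : z ^ r ≠ 0 := pow_ne_zero _ hz0
    have hr0 : (0 : ℤ) < r := by
      have : 0 < r := by rw [hr]; omega
      exact_mod_cast this
    have hwz : w.ord (z ^ r) < 0 := by
      rw [ord_pow]
      exact mul_neg_of_pos_of_neg hr0 hz2
    have hwu : w.ord (y + z ^ r) < 0 := by
      rw [add_comm, ord_add_eq_of_lt w hzr0 (Or.inr (lt_of_lt_of_le hwz h))]
      exact hwz
    have hu0 : y + z ^ r ≠ 0 := by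
      intro h0
      rw [h0] at hwu
      simp at hwu
    refine ⟨y + z ^ r, hu0, ?_, fun w' hw' => ?_⟩
    · refine lt_of_lt_of_le (lt_min hy1 ?_) (min_le_ord_add v hu0)
      rw [ord_pow]
      exact mul_pos hr0 hz1
    · rcases Finset.mem_insert.mp hw' with rfl | h'
      · exact hwu
      · rcases lt_or_gt_of_ne (hne w' h') with h3 | h3
        · rw [ord_add_eq_of_lt w' hy0 (Or.inr h3)]
          exact hy2 w' h'
        · rw [add_comm, ord_add_eq_of_lt w' hzr0 (Or.inr h3)]
          exact h3.trans (hy2 w' h')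

theorem exists_approx_one (v : Place K F) (S : Finset (Place K F)) (hv : v ∉ S) (n : ℕ) :
    ∃ e : F, v.adicValuation (e - 1) ≤ exp (-n : ℤ) ∧ ∀ w ∈ S, w.adicValuation e ≤ exp (-n : ℤ) := by
  obtain ⟨u, hu0, hu1, hu2⟩ := exists_pos_forall_neg v S hv
  set s : ℕ := n + 1 with hs
  have hus0 : u ^ s ≠ 0 := pow_ne_zero _ hu0
  have hvus : (s : ℤ) ≤ v.ord (u ^ s) := by
    rw [ord_pow]
    nlinarith
  have hv1 : v.ord (1 + u ^ s) = 0 := by
    rw [ord_add_eq_of_lt v one_ne_zero (Or.inr (by rw [v.ord_one]; omega)), v.ord_one]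
  have hwus : ∀ w ∈ S, w.ord (u ^ s) ≤ -s := by
    intro w hw
    have := hu2 w hw
    rw [ord_pow]
    nlinarith
  have hw1 : ∀ w ∈ S, w.ord (1 + u ^ s) ≤ -s := by
    intro w hw
    have := hwus w hw
    rw [add_comm, ord_add_eq_of_lt w hus0 (Or.inr (by rw [w.ord_one]; omega))]
    exact this
  have h10 : 1 + u ^ s ≠ 0 := by
    intro h0
    have h1 : u ^ s = -1 := by linear_combination h0
    rw [h1, ord_neg, v.ord_one] at hvus
    omega
  refine ⟨(1 + u ^ s)⁻¹, ?_, fun w hw => ?_⟩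
  · apply le_exp_of_ord
    have h2 : (1 + u ^ s)⁻¹ - 1 = -(u ^ s * (1 + u ^ s)⁻¹) := by
      field_simp
      ring
    rw [h2, ord_neg, v.ord_mul hus0 (inv_ne_zero h10), v.ord_inv, hv1]
    omega
  · apply le_exp_of_ord
    have := hw1 w hw
    rw [w.ord_inv]
    omega

/-- **Weak approximation**. -/
theorem exists_approx (S : Finset (Place K F)) (a : Place K F → F) (n : Place K F → ℤ) :
    ∃ f : F, ∀ v ∈ S, v.adicValuation (f - a v) ≤ exp (n v) := by
  classical
  -- a large integer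
  obtain ⟨N, hN⟩ : ∃ N : ℕ, ∀ v ∈ S, ∀ w ∈ S,
      v.adicValuation (a w) ≤ exp ((N : ℤ) + n v) := by
    refine ⟨∑ v ∈ S, ∑ w ∈ S, ((-n v).toNat + (-v.ord (a w)).toNat), fun v hv w hw => ?_⟩
    rw [v.adicValuation_le_exp_iff]
    right
    have h1 := Finset.single_le_sum (f := fun v : Place K F =>
      ∑ w ∈ S, ((-n v).toNat + (-v.ord (a w)).toNat)) (fun _ _ => Nat.zero_le _) hv
    have h2 := Finset.single_le_sum (f := fun w : Place K F =>
      ((-n v).toNat + (-v.ord (a w)).toNat)) (fun _ _ => Nat.zero_le _) hw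
    have h3 : (-n v).toNat + (-v.ord (a w)).toNat ≤
        ∑ v ∈ S, ∑ w ∈ S, ((-n v).toNat + (-v.ord (a w)).toNat) := h2.trans h1
    omega
  have hex : ∀ v : Place K F, ∃ e : F, v.adicValuation (e - 1) ≤ exp (-N : ℤ) ∧
      ∀ w ∈ S.erase v, w.adicValuation e ≤ exp (-N : ℤ) := fun v =>
    exists_approx_one v (S.erase v) (Finset.notMem_erase v S) N
  choose e he1 he2 using hex
  refine ⟨∑ w ∈ S, e w * a w, fun v hv => ?_⟩
  have h1 : ∑ w ∈ S, e w * a w - a v = (e v - 1) * a v + ∑ w ∈ S.erase v, e w * a w := by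
    rw [← Finset.add_sum_erase S _ hv]
    ring
  have key : ∀ x y : F, v.adicValuation x ≤ exp (-N : ℤ) → v.adicValuation y ≤ exp ((N : ℤ) + n v) →
      v.adicValuation (x * y) ≤ exp (n v) := by
    intro x y hx hy
    rw [map_mul]
    calc v.adicValuation x * v.adicValuation y ≤ exp (-N : ℤ) * exp ((N : ℤ) + n v) := by gcongr
      _ = exp (n v) := by rw [← exp_add]; congr 1; ring
  rw [h1]
  refine (Valuation.map_add _ _ _).trans (max_le ?_ ?_)
  · exact key _ _ (he1 v) (hN v hv v hv)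
  · refine Valuation.map_sum_le _ fun w hw => ?_
    rw [Finset.mem_erase] at hw
    exact key _ _ (he2 w v (Finset.mem_erase.mpr ⟨hw.1.symm, hv⟩)) (hN v hv w hw.2)

end Fermat.Agent.RR
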