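import Fermat.Agent.RR.Places
import Mathlib.LinearAlgebra.Dimension.Constructions
import Mathlib.RingTheory.Localization.Module
import Mathlib.LinearAlgebra.Isomorphisms

/-!
# Linear algebra for Riemann-Roch
-/

set_option autoImplicit false
set_option linter.unusedSectionVars false
set_option linter.style.haveILetI false

open WithZero AlgebraicCurve Fermat.Agent.FF IntermediateField IsDedekindDomain Module
open scoped IntermediateField.algebraAdjoinAdjoin

namespace Fermat.Agent.RR

variable {K F : Type*} [Field K] [Field F] [Algebra K F]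

/-- dimension of a quotient: one step. -/
theorem finrank_quotient_of_sup_span {V : Type*} [AddCommGroup V] [Module K V]
    (N : Submodule K V) {m : V} (hm : m ∉ N) [Module.Finite K (V ⧸ (N ⊔ K ∙ m))] :
    Module.Finite K (V ⧸ N) ∧ finrank K (V ⧸ N) = finrank K (V ⧸ (N ⊔ K ∙ m)) + 1 := by
  have hmap : (K ∙ m).map N.mkQ = K ∙ (N.mkQ m) := by
    rw [Submodule.map_span, Set.image_singleton]
  have hm0 : N.mkQ m ≠ 0 := by
    intro h
    exact hm ((Submodule.Quotient.mk_eq_zero N).mp h)
  let e := Submodule.quotientQuotientEquivQuotientSup N (K ∙ m)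
  haveI h1 : Module.Finite K ((V ⧸ N) ⧸ (K ∙ m).map N.mkQ) := Module.Finite.equiv e.symm
  haveI h2 : Module.Finite K ((K ∙ m).map N.mkQ) := by
    rw [hmap]; infer_instance
  haveI h3 : Module.Finite K (V ⧸ N) := Module.Finite.of_submodule_quotient ((K ∙ m).map N.mkQ)
  refine ⟨h3, ?_⟩
  rw [← Submodule.finrank_quotient_add_finrank ((K ∙ m).map N.mkQ), e.finrank_eq, hmap,
    finrank_span_singleton hm0]

section PolyIndep

open Polynomial

variable {ι : Type*} [Fintype ι] {x : F} (e : ι → F) (R : Submodule K F)

theorem aeval_mul_mem (hR : ∀ f ∈ R, x * f ∈ R) {f : F} (hf : f ∈ R) (p : K[X]) :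
    aeval x p * f ∈ R := by
  induction p using Polynomial.induction_on' with
  | add p q hp hq => rw [map_add, add_mul]; exact R.add_mem hp hq
  | monomial n a =>
    rw [aeval_monomial, mul_assoc, ← Algebra.smul_def]
    refine R.smul_mem _ ?_
    induction n with
    | zero => simpa using hf
    | succ n ih => rw [pow_succ', mul_assoc]; exact hR _ ih

theorem poly_eq_zero_of_sum_eq_zero (hx : x ≠ 0) (hR : ∀ f ∈ R, x * f ∈ R) (he : ∀ i, e i ∈ R)
    (h : ∀ c : ι → K, (∃ g ∈ R, ∑ i, c i • e i = x * g) → c = 0) (N : ℕ) :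
    ∀ p : ι → K[X], (∀ i, (p i).natDegree ≤ N) → ∑ i, aeval x (p i) * e i = 0 →
      ∀ i, p i = 0 := by
  have key : ∀ p : ι → K[X], ∑ i, aeval x (p i) * e i = 0 → ∀ i, (p i).coeff 0 = 0 := by
    intro p hp
    have h1 := h (fun i => (p i).coeff 0) ⟨-∑ i, aeval x (p i).divX * e i, ?_, ?_⟩
    · exact fun i => congrFun h1 i
    · exact R.neg_mem (R.sum_mem fun i _ => aeval_mul_mem R hR (he i) _)
    · have h2 : ∀ i, (p i).coeff 0 • e i = aeval x (p i) * e i - x * (aeval x (p i).divX * e i) := by
        intro i
        conv_rhs => rw [← Polynomial.X_mul_divX_add (p i)]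
        rw [map_add, map_mul, aeval_X, aeval_C, Algebra.smul_def]
        simp only [Polynomial.X_mul_divX_add]
        ring
      rw [Finset.sum_congr rfl fun i _ => h2 i, Finset.sum_sub_distrib, hp, zero_sub, mul_neg,
        Finset.mul_sum]
  induction N with
  | zero =>
    intro p hN hp i
    rw [Polynomial.eq_C_of_natDegree_le_zero (hN i), key p hp i, map_zero]
  | succ N ih =>
    intro p hN hp i
    have h0 := key p hp
    have h1 : ∀ i, p i = X * (p i).divX := by
      intro i
      conv_lhs => rw [← Polynomial.X_mul_divX_add (p i), h0 i, map_zero, add_zero]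
    have h2 : ∀ i, (p i).divX = 0 := by
      apply ih
      · intro i
        rw [Polynomial.natDegree_divX_eq_natDegree_tsub_one]
        have := hN i
        omega
      · have h3 : x * ∑ i, aeval x (p i).divX * e i = 0 := by
          rw [Finset.mul_sum, ← hp]
          refine Finset.sum_congr rfl fun i _ => ?_
          conv_rhs => rw [h1 i]
          rw [map_mul, aeval_X, mul_assoc]
        exact (mul_eq_zero.mp h3).resolve_left hx
    rw [h1 i, h2 i, mul_zero]

theorem linearIndependent_of_mod (hx : x ≠ 0) (hR : ∀ f ∈ R, x * f ∈ R)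
    (he : ∀ i, e i ∈ R) (h : ∀ c : ι → K, (∃ g ∈ R, ∑ i, c i • e i = x * g) → c = 0) :
    LinearIndependent K⟮x⟯ e := by
  rw [← LinearIndependent.iff_fractionRing (R := Algebra.adjoin K {x}), Fintype.linearIndependent_iff]
  intro g hg
  have h1 : ∀ i, ∃ p : K[X], (g i : F) = aeval x p := fun i => exists_poly x (g i)
  choose p hp using h1
  have h2 := poly_eq_zero_of_sum_eq_zero e R hx hR he h (Finset.univ.sup fun i => (p i).natDegree) p
    (fun i => Finset.le_sup (f := fun i => (p i).natDegree) (Finset.mem_univ i)) (by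
      rw [← hg]
      refine Finset.sum_congr rfl fun i _ => ?_
      rw [← hp]
      rfl)
  intro i
  apply Subtype.ext
  rw [hp i, h2 i, map_zero]
  rfl

end PolyIndep

end Fermat.Agent.RR
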